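import Mathlib

set_option autoImplicit false

/-!
# S17, package H, seat L7, piece D4: Cramer's rule for a tall matrix

`M` is an `E × D` matrix (rows `Fin E`, columns `Fin D`), `I : Fin D → Fin E` a choice of rows,
`M_I = M.submatrix I id` the square matrix of the chosen rows.
`cram M I w = adj(M_I) (w ∘ I)`: if `w = M k` then `cram M I w = det(M_I) k`.
Pure linear algebra (Mathlib `Matrix.adjugate`, `Matrix.det`).
-/

noncomputable section

namespace Fermat.Agent.S17.L7

open Matrix

variable {R : Type*} [CommRing R] {E D : ℕ}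

/-- the square matrix of the rows `I` -/
def rowsOf (M : Matrix (Fin E) (Fin D) R) (I : Fin D → Fin E) : Matrix (Fin D) (Fin D) R :=
  M.submatrix I id

/-- Cramer's vector: `adj(M_I) (w ∘ I)` -/
def cram (M : Matrix (Fin E) (Fin D) R) (I : Fin D → Fin E) (w : Fin E → R) : Fin D → R :=
  (rowsOf M I).adjugate *ᵥ (w ∘ I)

theorem cram_apply (M : Matrix (Fin E) (Fin D) R) (I : Fin D → Fin E) (w : Fin E → R)
    (s : Fin D) : cram M I w s = ∑ t, (rowsOf M I).adjugate s t * w (I t) := rfl

/-- the chosen rows of `M k` are `M_I k`. -/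
theorem mulVec_comp_rows (M : Matrix (Fin E) (Fin D) R) (I : Fin D → Fin E) (k : Fin D → R) :
    (M *ᵥ k) ∘ I = rowsOf M I *ᵥ k := by
  funext t
  rfl

/-- (C1) Cramer: `adj(M_I) ((M k) ∘ I) = det(M_I) k`. -/
theorem cram_mulVec (M : Matrix (Fin E) (Fin D) R) (I : Fin D → Fin E) (k : Fin D → R) :
    cram M I (M *ᵥ k) = (rowsOf M I).det • k := by
  unfold cram
  rw [mulVec_comp_rows, Matrix.mulVec_mulVec, Matrix.adjugate_mul, Matrix.smul_mulVec,
    Matrix.one_mulVec]

/-- (C1') the Cramer identities hold for every vector in the range of `M`. -/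
theorem det_smul_eq_mulVec_cram (M : Matrix (Fin E) (Fin D) R) (I : Fin D → Fin E)
    (k : Fin D → R) :
    (rowsOf M I).det • (M *ᵥ k) = M *ᵥ cram M I (M *ᵥ k) := by
  rw [cram_mulVec, Matrix.mulVec_smul]

theorem rowsOf_map {S : Type*} [CommRing S] (f : R →+* S) (M : Matrix (Fin E) (Fin D) R)
    (I : Fin D → Fin E) : rowsOf (M.map f) I = (rowsOf M I).map f := rfl

/-- (C4) compatibility with ring homomorphisms. -/
theorem map_cram {S : Type*} [CommRing S] (f : R →+* S) (M : Matrix (Fin E) (Fin D) R)
    (I : Fin D → Fin E) (w : Fin E → R) (s : Fin D) :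
    f (cram M I w s) = cram (M.map f) I (fun ρ => f (w ρ)) s := by
  rw [cram_apply, cram_apply, map_sum]
  refine Finset.sum_congr rfl fun t _ => ?_
  rw [map_mul, rowsOf_map]
  congr 1
  have h := RingHom.map_adjugate f (rowsOf M I)
  have h2 := congrFun (congrFun h s) t
  simpa [RingHom.mapMatrix_apply] using h2

theorem map_det_rowsOf {S : Type*} [CommRing S] (f : R →+* S) (M : Matrix (Fin E) (Fin D) R)
    (I : Fin D → Fin E) :
    f (rowsOf M I).det = (rowsOf (M.map f) I).det := by
  rw [rowsOf_map, RingHom.map_det]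
  rfl

section field

variable {K : Type*} [Field K]

/-- (C2) an injective tall matrix over a field has a nonzero maximal minor. -/
theorem exists_det_rowsOf_ne_zero (M : Matrix (Fin E) (Fin D) K)
    (hM : ∀ k : Fin D → K, M *ᵥ k = 0 → k = 0) :
    ∃ I : Fin D → Fin E, (rowsOf M I).det ≠ 0 := by
  classical
  -- the rank of `M` is `D`
  have hinj : Function.Injective M.mulVecLin := by
    rw [← LinearMap.ker_eq_bot, LinearMap.ker_eq_bot']
    intro k hk
    exact hM k hk
  have hrank : M.rank = D := by
    rw [Matrix.rank, LinearMap.finrank_range_of_inj hinj, Module.finrank_fintype_fun_eq_card,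
      Fintype.card_fin]
  have hrow : Module.finrank K (Submodule.span K (Set.range M.row)) = D := by
    rw [← Matrix.rank_eq_finrank_span_row, hrank]
  obtain ⟨f, hf, -, hfli⟩ := Submodule.exists_fun_fin_finrank_span_eq K (Set.range M.row)
  choose J hJ using hf
  -- reindex along `Fin D ≃ Fin (finrank ..)`
  let e : Fin D ≃ Fin (Module.finrank K (Submodule.span K (Set.range M.row))) :=
    finCongr hrow.symm
  refine ⟨fun t => J (e t), ?_⟩
  have hli : LinearIndependent K (rowsOf M (fun t => J (e t))).row := by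
    have h1 : (rowsOf M (fun t => J (e t))).row = f ∘ e := by
      funext t
      show M.row (J (e t)) = f (e t)
      exact hJ (e t)
    rw [h1]
    exact hfli.comp _ e.injective
  have hunit := Matrix.linearIndependent_rows_iff_isUnit.mp hli
  exact ((Matrix.isUnit_iff_isUnit_det _).mp hunit).ne_zero

/-- (C3) if the Cramer identity holds for `w` at a nonzero minor, `w` is in the range of `M`. -/
theorem exists_mulVec_eq_of_cram (M : Matrix (Fin E) (Fin D) K) (I : Fin D → Fin E)
    (hI : (rowsOf M I).det ≠ 0) (w : Fin E → K)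
    (hw : (rowsOf M I).det • w = M *ᵥ cram M I w) :
    ∃ k : Fin D → K, M *ᵥ k = w ∧ cram M I w = (rowsOf M I).det • k := by
  refine ⟨(rowsOf M I).det⁻¹ • cram M I w, ?_, ?_⟩
  · rw [Matrix.mulVec_smul, ← hw, smul_smul, inv_mul_cancel₀ hI, one_smul]
  · rw [smul_smul, mul_inv_cancel₀ hI, one_smul]

end field

end Fermat.Agent.S17.L7
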