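import Mathlib
import Fermat.Agent.S17.H.NST

set_option autoImplicit false
set_option linter.unusedSectionVars false

/-!
# S17, package H, seat L7, piece D1: closure properties of `IsMultiHom`

`IsMultiHom n d F` (seat L1, `S17/H/NST.lean`): every monomial of `F` has degree `d i` in the
variables of the factor `i`.  Here: constants, variables, sums, products, determinants and
adjugates of matrices of multihomogeneous forms, and renaming of homogeneous polynomials into
one factor.  Pure `MvPolynomial` bookkeeping (hint: `IsMultiHom n d F ↔ ∀ i,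
IsWeightedHomogeneous (fun s => if s.1 = i then 1 else 0) F (d i)`, then Mathlib's closure
lemmas for `IsWeightedHomogeneous`).
-/

noncomputable section

namespace Fermat.Agent.S17

open MvPolynomial

variable {ι : Type} [Fintype ι] [DecidableEq ι] {n : ι → ℕ}

theorem isMultiHom_zero (d : ι → ℕ) : IsMultiHom n d (0 : MvPolynomial (MPVar n) Qbar) := by
  intro m hm
  simp at hm

theorem isMultiHom_C (c : Qbar) : IsMultiHom n (fun _ => 0) (C c : MvPolynomial (MPVar n) Qbar) := by
  classical
  intro m hm i
  have h0 : m = 0 := by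
    by_contra h
    rw [MvPolynomial.mem_support_iff, MvPolynomial.coeff_C, if_neg (Ne.symm h)] at hm
    exact hm rfl
  subst h0
  simp

theorem isMultiHom_one : IsMultiHom n (fun _ => 0) (1 : MvPolynomial (MPVar n) Qbar) := by
  have := isMultiHom_C (n := n) (1 : Qbar)
  rwa [map_one] at this

theorem isMultiHom_X (i : ι) (a : Fin (n i + 1)) :
    IsMultiHom n (Pi.single i 1) (X (⟨i, a⟩ : MPVar n) : MvPolynomial (MPVar n) Qbar) := by
  classical
  intro m hm i'
  have h0 : m = Finsupp.single (⟨i, a⟩ : MPVar n) 1 := by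
    by_contra h
    rw [MvPolynomial.mem_support_iff, MvPolynomial.coeff_X, if_neg (Ne.symm h)] at hm
    exact hm rfl
  subst h0
  by_cases hi : i' = i
  · subst hi
    rw [Pi.single_eq_same, Finset.sum_eq_single a]
    · simp
    · intro b _ hb
      rw [Finsupp.single_apply, if_neg]
      intro h
      exact hb (by
        have := (Sigma.mk.inj_iff.mp h).2
        exact (eq_of_heq this).symm)
    · intro h
      exact absurd (Finset.mem_univ a) h
  · rw [Pi.single_eq_of_ne hi]
    refine Finset.sum_eq_zero fun b _ => ?_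
    rw [Finsupp.single_apply, if_neg]
    intro h
    exact hi (Sigma.mk.inj_iff.mp h).1.symm

theorem IsMultiHom.add {d : ι → ℕ} {F G : MvPolynomial (MPVar n) Qbar}
    (hF : IsMultiHom n d F) (hG : IsMultiHom n d G) : IsMultiHom n d (F + G) := by
  classical
  intro m hm
  rcases Finset.mem_union.mp (MvPolynomial.support_add hm) with h | h
  · exact hF m h
  · exact hG m h

theorem IsMultiHom.neg {d : ι → ℕ} {F : MvPolynomial (MPVar n) Qbar}
    (hF : IsMultiHom n d F) : IsMultiHom n d (-F) := by
  intro m hm
  rw [MvPolynomial.support_neg] at hm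
  exact hF m hm

theorem IsMultiHom.sub {d : ι → ℕ} {F G : MvPolynomial (MPVar n) Qbar}
    (hF : IsMultiHom n d F) (hG : IsMultiHom n d G) : IsMultiHom n d (F - G) := by
  rw [sub_eq_add_neg]
  exact hF.add hG.neg

theorem IsMultiHom.sum {d : ι → ℕ} {α : Type*} (s : Finset α)
    (F : α → MvPolynomial (MPVar n) Qbar) (hF : ∀ x ∈ s, IsMultiHom n d (F x)) :
    IsMultiHom n d (∑ x ∈ s, F x) := by
  classical
  induction s using Finset.induction_on with
  | empty => simpa using isMultiHom_zero (n := n) d
  | insert a s ha ih =>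
    rw [Finset.sum_insert ha]
    exact (hF a (Finset.mem_insert_self a s)).add
      (ih fun x hx => hF x (Finset.mem_insert_of_mem hx))

theorem IsMultiHom.mul {d d' : ι → ℕ} {F G : MvPolynomial (MPVar n) Qbar}
    (hF : IsMultiHom n d F) (hG : IsMultiHom n d' G) : IsMultiHom n (d + d') (F * G) := by
  classical
  intro m hm i
  obtain ⟨m₁, h₁, m₂, h₂, rfl⟩ := Finset.mem_add.mp (MvPolynomial.support_mul F G hm)
  simp only [Finsupp.add_apply, Finset.sum_add_distrib, Pi.add_apply]
  rw [hF m₁ h₁ i, hG m₂ h₂ i]

theorem IsMultiHom.C_mul {d : ι → ℕ} {F : MvPolynomial (MPVar n) Qbar} (c : Qbar)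
    (hF : IsMultiHom n d F) : IsMultiHom n d (C c * F) := by
  have h := (isMultiHom_C (n := n) c).mul hF
  have e : (fun _ : ι => 0) + d = d := by
    funext i
    simp
  rwa [e] at h

theorem IsMultiHom.prod {α : Type*} (s : Finset α) (d : α → ι → ℕ)
    (F : α → MvPolynomial (MPVar n) Qbar) (hF : ∀ x ∈ s, IsMultiHom n (d x) (F x)) :
    IsMultiHom n (∑ x ∈ s, d x) (∏ x ∈ s, F x) := by
  classical
  induction s using Finset.induction_on with
  | empty =>
    simp only [Finset.sum_empty, Finset.prod_empty]
    exact isMultiHom_one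
  | insert a s ha ih =>
    rw [Finset.sum_insert ha, Finset.prod_insert ha]
    exact (hF a (Finset.mem_insert_self a s)).mul
      (ih fun x hx => hF x (Finset.mem_insert_of_mem hx))

theorem IsMultiHom.pow {d : ι → ℕ} {F : MvPolynomial (MPVar n) Qbar}
    (hF : IsMultiHom n d F) (k : ℕ) : IsMultiHom n (k • d) (F ^ k) := by
  have h := IsMultiHom.prod (Finset.range k) (fun _ => d) (fun _ => F) (fun _ _ => hF)
  simpa using h

/-- change of the name of the multidegree -/
theorem IsMultiHom.congr {d d' : ι → ℕ} {F : MvPolynomial (MPVar n) Qbar}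
    (hF : IsMultiHom n d F) (h : d = d') : IsMultiHom n d' F := h ▸ hF

/-- the action of a sign -/
theorem IsMultiHom.units_smul {d : ι → ℕ} {F : MvPolynomial (MPVar n) Qbar}
    (hF : IsMultiHom n d F) (ε : ℤˣ) : IsMultiHom n d (ε • F) := by
  rcases Int.units_eq_one_or ε with h | h
  · rw [h, one_smul]; exact hF
  · rw [h, Units.neg_smul, one_smul]; exact hF.neg

/-- the determinant of a square matrix whose rows consist of forms of multidegree `δ r`
(depending on the row `r`) has multidegree `∑ r, δ r`. -/
theorem IsMultiHom.det_rows {D : ℕ} {δ : Fin D → ι → ℕ}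
    (M : Matrix (Fin D) (Fin D) (MvPolynomial (MPVar n) Qbar))
    (hM : ∀ a b, IsMultiHom n (δ a) (M a b)) : IsMultiHom n (∑ r, δ r) M.det := by
  rw [Matrix.det_apply]
  refine IsMultiHom.sum _ _ fun σ _ => ?_
  refine IsMultiHom.units_smul ?_ _
  have h := IsMultiHom.prod Finset.univ (fun i => δ (σ i)) (fun i => M (σ i) i)
    (fun i _ => hM (σ i) i)
  refine h.congr ?_
  exact Equiv.sum_comp σ δ

/-- the determinant of a square matrix of forms of multidegree `δ` has multidegree `D • δ`. -/
theorem IsMultiHom.det {D : ℕ} {δ : ι → ℕ}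
    (M : Matrix (Fin D) (Fin D) (MvPolynomial (MPVar n) Qbar))
    (hM : ∀ a b, IsMultiHom n δ (M a b)) : IsMultiHom n (D • δ) M.det := by
  refine (IsMultiHom.det_rows (δ := fun _ => δ) M hM).congr ?_
  simp

/-- the entries of the adjugate of a square matrix of forms of multidegree `δ` have
multidegree `(D - 1) • δ`. -/
theorem IsMultiHom.adjugate {D : ℕ} {δ : ι → ℕ}
    (M : Matrix (Fin D) (Fin D) (MvPolynomial (MPVar n) Qbar))
    (hM : ∀ a b, IsMultiHom n δ (M a b)) (a b : Fin D) :
    IsMultiHom n ((D - 1) • δ) (M.adjugate a b) := by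
  classical
  rw [Matrix.adjugate_apply]
  have h := IsMultiHom.det_rows (δ := fun r => if r = b then 0 else δ)
    (M.updateRow b (Pi.single a 1)) (fun r c => by
      by_cases hr : r = b
      · subst hr
        rw [if_pos rfl, Matrix.updateRow_self]
        by_cases hc : c = a
        · subst hc
          rw [Pi.single_eq_same]
          exact isMultiHom_one
        · rw [Pi.single_eq_of_ne hc]
          exact isMultiHom_zero _
      · rw [if_neg hr, Matrix.updateRow_ne hr]
        exact hM r c)
  refine h.congr ?_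
  rw [Finset.sum_ite, Finset.sum_const_zero, zero_add, Finset.sum_const]
  congr 1
  rw [Finset.filter_ne' Finset.univ b, Finset.card_erase_of_mem (Finset.mem_univ b),
    Finset.card_univ, Fintype.card_fin]

/-- a homogeneous polynomial in the variables of the factor `i` -/
def inFactor (i : ι) (S : MvPolynomial (Fin (n i + 1)) Qbar) : MvPolynomial (MPVar n) Qbar :=
  rename (fun a => (⟨i, a⟩ : MPVar n)) S

theorem eval_inFactor (i : ι) (S : MvPolynomial (Fin (n i + 1)) Qbar)
    (y : ∀ i, Fin (n i + 1) → Qbar) :
    eval (mpPoint n y) (inFactor i S) = eval (y i) S := by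
  unfold inFactor
  rw [MvPolynomial.eval_rename]
  rfl

theorem isMultiHom_inFactor (i : ι) {S : MvPolynomial (Fin (n i + 1)) Qbar} {k : ℕ}
    (hS : S.IsHomogeneous k) : IsMultiHom n (Pi.single i k) (inFactor i S) := by
  classical
  have hinj : Function.Injective (fun a : Fin (n i + 1) => (⟨i, a⟩ : MPVar n)) := by
    intro a b h
    exact eq_of_heq (Sigma.mk.inj_iff.mp h).2
  intro m hm i'
  unfold inFactor at hm
  rw [MvPolynomial.support_rename_of_injective hinj, Finset.mem_image] at hm
  obtain ⟨m₀, hm₀, rfl⟩ := hm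
  have hdeg : ∑ a : Fin (n i + 1), m₀ a = k := by
    have h1 := hS (MvPolynomial.mem_support_iff.mp hm₀)
    rw [← h1, Finsupp.weight_apply, Finsupp.sum_fintype _ _ (fun _ => by simp)]
    simp
  by_cases hi : i' = i
  · subst hi
    rw [Pi.single_eq_same, ← hdeg]
    refine Finset.sum_congr rfl fun a _ => ?_
    exact Finsupp.mapDomain_apply hinj m₀ a
  · rw [Pi.single_eq_of_ne hi]
    refine Finset.sum_eq_zero fun a _ => ?_
    refine Finsupp.mapDomain_of_notMem_range _ _ ?_
    rintro ⟨b, hb⟩
    exact hi (Sigma.mk.inj_iff.mp hb).1.symm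

end Fermat.Agent.S17
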