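import Mathlib
import Fermat.Agent.S17.H.NST
import Fermat.Agent.S17.H.L7.MultiHom
import Fermat.Agent.S17.H.L7.Cramer

set_option autoImplicit false
set_option linter.unusedVariables false
set_option linter.unusedSectionVars false

/-!
# S17, package H, seat L7, piece D5: the generic forms (curve-free)

Factors of the multi-projective space: the point `P` (`ℙ^r`), the zeros `c_i`, `i : Fin N`
(`ℙ^r` each), the section `f` (`ℙ^d`).  Data: evaluation points `q ρ`, values `β ρ t` of the
basis of `V_j` and `β' ρ s` of the basis of `V_{N-j}` at these points, polynomial representatives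
`B' s` of the basis of `V_{N-j}`.

* `genM`   : the generic matrix of `k ↦ (values of f k)`,
* `genW μ` : the generic values of the product of linear forms `L_μ`,
* `psi I μ`: the Cramer form `Σ_s [adj(M_I) (w_μ)_I]_s B'_s(y)`,
* `cramEq I μ ρ` : the Cramer identity `det(M_I) w_μ ρ - (M adj(M_I) (w_μ)_I) ρ`.
-/

noncomputable section

namespace Fermat.Agent.S17.L7

open MvPolynomial Matrix

/-- the factors: the point, the zeros, the section -/
abbrev Fac (N : ℕ) : Type := Unit ⊕ (Fin N ⊕ Unit)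

/-- the factor of the point `P` -/
abbrev facP (N : ℕ) : Fac N := Sum.inl ()
/-- the factor of the zero `c_i` -/
abbrev facC {N : ℕ} (i : Fin N) : Fac N := Sum.inr (Sum.inl i)
/-- the factor of the section `f` -/
abbrev facF (N : ℕ) : Fac N := Sum.inr (Sum.inr ())

/-- dimensions of the factors -/
abbrev dims (r d N : ℕ) : Fac N → ℕ :=
  Sum.elim (fun _ => r) (Sum.elim (fun _ => r) (fun _ => d))

variable {r d N D E : ℕ}

/-- a point of the multi-projective space -/
def mkPoint (yP : Fin (r + 1) → Qbar) (yC : Fin N → Fin (r + 1) → Qbar)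
    (yF : Fin (d + 1) → Qbar) : ∀ i : Fac N, Fin (dims r d N i + 1) → Qbar
  | Sum.inl _ => yP
  | Sum.inr (Sum.inl i) => yC i
  | Sum.inr (Sum.inr _) => yF

/-- the polynomial ring of the forms -/
abbrev PolyRing (r d N : ℕ) : Type := MvPolynomial (MPVar (dims r d N)) Qbar

/-- variable of a zero -/
def XC (r d : ℕ) {N : ℕ} (i : Fin N) (a : Fin (r + 1)) : PolyRing r d N :=
  X (⟨facC i, a⟩ : MPVar (dims r d N))

/-- variable of the section -/
def XF (r d N : ℕ) (t : Fin (d + 1)) : PolyRing r d N :=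
  X (⟨facF N, t⟩ : MPVar (dims r d N))

/-- index pairs -/
abbrev Pair (r : ℕ) : Type := Fin (r + 1) × Fin (r + 1)

/-- multidegrees -/
def degP (r d N : ℕ) (k : ℕ) : Fac N → ℕ := Pi.single (facP N) k
def degF (r d N : ℕ) (k : ℕ) : Fac N → ℕ := Pi.single (facF N) k
def degC (r d N : ℕ) : Fac N → ℕ := fun i => Sum.elim (fun _ => 0) (Sum.elim (fun _ => 1) (fun _ => 0)) i

/-- the generic value of `f` at the evaluation point `ρ` -/
def genF (r N : ℕ) (β : Fin E → Fin (d + 1) → Qbar) (ρ : Fin E) : PolyRing r d N :=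
  ∑ t, C (β ρ t) * XF r d N t

/-- the generic matrix of `k ↦ values of f k` -/
def genM (r N : ℕ) (β : Fin E → Fin (d + 1) → Qbar) (β' : Fin E → Fin D → Qbar) :
    Matrix (Fin E) (Fin D) (PolyRing r d N) :=
  fun ρ s => genF r N β ρ * C (β' ρ s)

/-- the generic values of the product of linear forms -/
def genW (d : ℕ) (q : Fin E → Fin (r + 1) → Qbar) (μ : Fin N → Pair r) (ρ : Fin E) :
    PolyRing r d N :=
  ∏ i, (XC r d i (μ i).2 * C (q ρ (μ i).1) - XC r d i (μ i).1 * C (q ρ (μ i).2))

/-- the Cramer forms -/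
def psi (q : Fin E → Fin (r + 1) → Qbar) (β : Fin E → Fin (d + 1) → Qbar)
    (β' : Fin E → Fin D → Qbar) (B' : Fin D → MvPolynomial (Fin (r + 1)) Qbar)
    (I : Fin D → Fin E) (μ : Fin N → Pair r) : PolyRing r d N :=
  ∑ s, cram (genM r N β β') I (genW d q μ) s * inFactor (n := dims r d N) (facP N) (B' s)

/-- the Cramer identities -/
def cramEq (q : Fin E → Fin (r + 1) → Qbar) (β : Fin E → Fin (d + 1) → Qbar)
    (β' : Fin E → Fin D → Qbar) (I : Fin D → Fin E) (μ : Fin N → Pair r) (ρ : Fin E) :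
    PolyRing r d N :=
  (rowsOf (genM r N β β') I).det * genW d q μ ρ
    - (genM r N β β' *ᵥ cram (genM r N β β') I (genW d q μ)) ρ

/-! ### evaluation -/

section eval

variable (yP : Fin (r + 1) → Qbar) (yC : Fin N → Fin (r + 1) → Qbar) (yF : Fin (d + 1) → Qbar)

/-- the value of `f` at the evaluation point `ρ` -/
def valF (β : Fin E → Fin (d + 1) → Qbar) (yF : Fin (d + 1) → Qbar) (ρ : Fin E) : Qbar :=
  ∑ t, β ρ t * yF t

/-- the matrix of `k ↦ values of f k` -/
def valM (β : Fin E → Fin (d + 1) → Qbar) (β' : Fin E → Fin D → Qbar)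
    (yF : Fin (d + 1) → Qbar) : Matrix (Fin E) (Fin D) Qbar :=
  fun ρ s => valF β yF ρ * β' ρ s

/-- the values of the product of linear forms -/
def valW (q : Fin E → Fin (r + 1) → Qbar) (yC : Fin N → Fin (r + 1) → Qbar)
    (μ : Fin N → Pair r) (ρ : Fin E) : Qbar :=
  ∏ i, (yC i (μ i).2 * q ρ (μ i).1 - yC i (μ i).1 * q ρ (μ i).2)

theorem eval_XC (i : Fin N) (a : Fin (r + 1)) :
    eval (mpPoint (dims r d N) (mkPoint yP yC yF)) (XC r d i a) = yC i a := by
  unfold XC
  rw [eval_X]
  rfl

theorem eval_XF (t : Fin (d + 1)) :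
    eval (mpPoint (dims r d N) (mkPoint yP yC yF)) (XF r d N t) = yF t := by
  unfold XF
  rw [eval_X]
  rfl

theorem eval_genF (β : Fin E → Fin (d + 1) → Qbar) (ρ : Fin E) :
    eval (mpPoint (dims r d N) (mkPoint yP yC yF)) (genF r N β ρ) = valF β yF ρ := by
  unfold genF valF
  rw [map_sum]
  refine Finset.sum_congr rfl fun t _ => ?_
  rw [map_mul, eval_C, eval_XF]

theorem eval_genM (β : Fin E → Fin (d + 1) → Qbar) (β' : Fin E → Fin D → Qbar) :
    (genM r N β β').map (eval (mpPoint (dims r d N) (mkPoint yP yC yF))) = valM β β' yF := by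
  ext ρ s
  simp only [Matrix.map_apply, genM, valM, map_mul, eval_C, eval_genF]

theorem eval_genW (q : Fin E → Fin (r + 1) → Qbar) (μ : Fin N → Pair r) (ρ : Fin E) :
    eval (mpPoint (dims r d N) (mkPoint yP yC yF)) (genW d q μ ρ) = valW q yC μ ρ := by
  unfold genW valW
  rw [map_prod]
  refine Finset.prod_congr rfl fun i _ => ?_
  rw [map_sub, map_mul, map_mul, eval_C, eval_C, eval_XC, eval_XC]

theorem eval_psi (q : Fin E → Fin (r + 1) → Qbar) (β : Fin E → Fin (d + 1) → Qbar)
    (β' : Fin E → Fin D → Qbar) (B' : Fin D → MvPolynomial (Fin (r + 1)) Qbar)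
    (I : Fin D → Fin E) (μ : Fin N → Pair r) :
    eval (mpPoint (dims r d N) (mkPoint yP yC yF)) (psi q β β' B' I μ)
      = ∑ s, cram (valM β β' yF) I (valW q yC μ) s * eval yP (B' s) := by
  unfold psi
  rw [map_sum]
  refine Finset.sum_congr rfl fun s _ => ?_
  rw [map_mul, map_cram, eval_genM, eval_inFactor]
  have h1 : (fun ρ => eval (mpPoint (dims r d N) (mkPoint yP yC yF)) (genW d q μ ρ))
      = valW q yC μ := funext fun ρ => eval_genW yP yC yF q μ ρ
  rw [h1]
  rfl

theorem eval_cramEq (q : Fin E → Fin (r + 1) → Qbar) (β : Fin E → Fin (d + 1) → Qbar)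
    (β' : Fin E → Fin D → Qbar) (I : Fin D → Fin E) (μ : Fin N → Pair r) (ρ : Fin E) :
    eval (mpPoint (dims r d N) (mkPoint yP yC yF)) (cramEq q β β' I μ ρ)
      = (rowsOf (valM β β' yF) I).det * valW q yC μ ρ
        - (valM β β' yF *ᵥ cram (valM β β' yF) I (valW q yC μ)) ρ := by
  unfold cramEq
  have h1 : (fun ρ => eval (mpPoint (dims r d N) (mkPoint yP yC yF)) (genW d q μ ρ))
      = valW q yC μ := funext fun ρ => eval_genW yP yC yF q μ ρ
  rw [map_sub, map_mul, map_det_rowsOf, eval_genM, eval_genW]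
  congr 1
  simp only [Matrix.mulVec, dotProduct, map_sum, map_mul, map_cram, eval_genM, h1]
  refine Finset.sum_congr rfl fun s _ => ?_
  congr 1
  have := congrFun (congrFun (eval_genM yP yC yF β β') ρ) s
  simpa [Matrix.map_apply] using this

theorem eval_det_rowsOf_genM (β : Fin E → Fin (d + 1) → Qbar) (β' : Fin E → Fin D → Qbar)
    (I : Fin D → Fin E) :
    eval (mpPoint (dims r d N) (mkPoint yP yC yF)) (rowsOf (genM r N β β') I).det
      = (rowsOf (valM β β' yF) I).det := by
  rw [map_det_rowsOf, eval_genM]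

end eval

/-! ### multidegrees -/

section degrees

theorem isMultiHom_XC (i : Fin N) (a : Fin (r + 1)) :
    IsMultiHom (dims r d N) (Pi.single (facC i) 1) (XC r d i a) :=
  isMultiHom_X (n := dims r d N) (facC i) a

theorem isMultiHom_genF (β : Fin E → Fin (d + 1) → Qbar) (ρ : Fin E) :
    IsMultiHom (dims r d N) (degF r d N 1) (genF r N β ρ) := by
  unfold genF
  refine IsMultiHom.sum _ _ fun t _ => ?_
  exact IsMultiHom.C_mul _ (isMultiHom_X (n := dims r d N) (facF N) t)

theorem isMultiHom_genM (β : Fin E → Fin (d + 1) → Qbar) (β' : Fin E → Fin D → Qbar)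
    (ρ : Fin E) (s : Fin D) :
    IsMultiHom (dims r d N) (degF r d N 1) (genM r N β β' ρ s) := by
  unfold genM
  rw [mul_comm]
  exact IsMultiHom.C_mul _ (isMultiHom_genF β ρ)

theorem sum_single_facC :
    (∑ i : Fin N, (Pi.single (facC i) 1 : Fac N → ℕ)) = degC r d N := by
  funext x
  rw [Finset.sum_apply]
  rcases x with x | x | x
  · simp [degC, Pi.single_apply]
  · simp [degC, Pi.single_apply]
  · simp [degC, Pi.single_apply]

theorem isMultiHom_genW (q : Fin E → Fin (r + 1) → Qbar) (μ : Fin N → Pair r) (ρ : Fin E) :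
    IsMultiHom (dims r d N) (degC r d N) (genW d q μ ρ) := by
  unfold genW
  have := IsMultiHom.prod (n := dims r d N) (Finset.univ : Finset (Fin N))
    (fun i => (Pi.single (facC i) 1 : Fac N → ℕ))
    (fun i => XC r d i (μ i).2 * C (q ρ (μ i).1) - XC r d i (μ i).1 * C (q ρ (μ i).2))
    (fun i _ => by
      refine IsMultiHom.sub ?_ ?_
      · rw [mul_comm]; exact IsMultiHom.C_mul _ (isMultiHom_XC i _)
      · rw [mul_comm]; exact IsMultiHom.C_mul _ (isMultiHom_XC i _))
  rwa [sum_single_facC] at this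

/-- the multidegree of the Cramer forms -/
def degPsi (r d N D k : ℕ) : Fac N → ℕ :=
  (D - 1) • degF r d N 1 + degC r d N + degP r d N k

/-- the multidegree of the Cramer identities -/
def degCramEq (r d N D : ℕ) : Fac N → ℕ :=
  D • degF r d N 1 + degC r d N

theorem isMultiHom_det_genM (β : Fin E → Fin (d + 1) → Qbar) (β' : Fin E → Fin D → Qbar)
    (I : Fin D → Fin E) :
    IsMultiHom (dims r d N) (D • degF r d N 1) (rowsOf (genM r N β β') I).det :=
  IsMultiHom.det _ fun a b => isMultiHom_genM β β' (I a) b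

theorem isMultiHom_cram (q : Fin E → Fin (r + 1) → Qbar) (β : Fin E → Fin (d + 1) → Qbar)
    (β' : Fin E → Fin D → Qbar) (I : Fin D → Fin E) (μ : Fin N → Pair r) (s : Fin D) :
    IsMultiHom (dims r d N) ((D - 1) • degF r d N 1 + degC r d N)
      (cram (genM r N β β') I (genW d q μ) s) := by
  rw [cram_apply]
  refine IsMultiHom.sum _ _ fun t _ => ?_
  exact IsMultiHom.mul
    (IsMultiHom.adjugate _ (fun a b => isMultiHom_genM β β' (I a) b) s t)
    (isMultiHom_genW q μ (I t))

theorem isMultiHom_psi (q : Fin E → Fin (r + 1) → Qbar) (β : Fin E → Fin (d + 1) → Qbar)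
    (β' : Fin E → Fin D → Qbar) (B' : Fin D → MvPolynomial (Fin (r + 1)) Qbar) {k : ℕ}
    (hB' : ∀ s, (B' s).IsHomogeneous k)
    (I : Fin D → Fin E) (μ : Fin N → Pair r) :
    IsMultiHom (dims r d N) (degPsi r d N D k) (psi q β β' B' I μ) := by
  unfold psi degPsi
  refine IsMultiHom.sum _ _ fun s _ => ?_
  exact IsMultiHom.mul (isMultiHom_cram q β β' I μ s)
    (isMultiHom_inFactor (n := dims r d N) (facP N) (hB' s))

theorem isMultiHom_cramEq (hD : 1 ≤ D) (q : Fin E → Fin (r + 1) → Qbar)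
    (β : Fin E → Fin (d + 1) → Qbar)
    (β' : Fin E → Fin D → Qbar) (I : Fin D → Fin E) (μ : Fin N → Pair r) (ρ : Fin E) :
    IsMultiHom (dims r d N) (degCramEq r d N D) (cramEq q β β' I μ ρ) := by
  unfold cramEq degCramEq
  refine IsMultiHom.sub ?_ ?_
  · exact IsMultiHom.mul (isMultiHom_det_genM β β' I) (isMultiHom_genW q μ ρ)
  · simp only [Matrix.mulVec, dotProduct]
    refine IsMultiHom.sum _ _ fun s _ => ?_
    have h1 := IsMultiHom.mul (isMultiHom_genM β β' ρ s) (isMultiHom_cram q β β' I μ s)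
    refine h1.congr ?_
    have h2 : D = 1 + (D - 1) := by omega
    conv_rhs => rw [h2, add_smul, one_smul]
    rw [add_assoc]

end degrees

end Fermat.Agent.S17.L7
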