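import Mathlib
import Fermat.Agent.S17.H.Curve
import Fermat.Agent.S17.H.ImmCurve
import Fermat.Agent.S17.H.ImmSec
import Fermat.Agent.S17.H.L7.PolyRep
import Fermat.Agent.S17.H.L7.Forms

/-!
# S17/H seat L7, piece D3a: linear forms through a point, values of sections

`linForm φ x p = x_b φ_a - x_a φ_b` (`p = (a,b)`), `prodLin φ x μ = ∏_i linForm φ (x i) (μ i)`,
`sval φ k P s` = the value at `P` of the section `s ∈ V_k`, `cnt c Q = #{i | c i = Q}`.
-/

set_option autoImplicit false
set_option linter.unusedSectionVars false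
set_option linter.unusedVariables false

noncomputable section

open AlgebraicCurve MvPolynomial

namespace Fermat.Agent.S17.L7

open Fermat.Agent.RR

variable {F : Type*} [Field F] [Algebra Qbar F]
variable {P₀ : Place Qbar F} {e r : ℕ} {φ : Fin (r + 1) → F}

/-- the linear form `x_b φ_a - x_a φ_b` through the point with coordinates `x` -/
def linForm (φ : Fin (r + 1) → F) (x : Fin (r + 1) → Qbar) (p : Pair r) : F :=
  algebraMap Qbar F (x p.2) * φ p.1 - algebraMap Qbar F (x p.1) * φ p.2

/-- the product of the linear forms -/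
def prodLin (φ : Fin (r + 1) → F) {N : ℕ} (x : Fin N → Fin (r + 1) → Qbar)
    (μ : Fin N → Pair r) : F :=
  ∏ i, linForm φ (x i) (μ i)

/-- the value at `P` of a section of `V_k` -/
def sval (φ : Fin (r + 1) → F) (k : ℕ) (P : Place Qbar F) (s : F) : Qbar :=
  val P (s / φ (pivot φ P) ^ k)

/-- the number of indices `i` with `c i = Q` -/
def cnt {N : ℕ} (c : Fin N → Place Qbar F) (Q : Place Qbar F) : ℕ :=
  open Classical in (Finset.univ.filter fun i => c i = Q).card

/-! ### values of sections -/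

/-- the basis functions are sections of `V_1` (D3a, helper63) -/
theorem phi_mem_secSpace_one (hφ : IsEmbBasis P₀ e φ) (a : Fin (r + 1)) :
    φ a ∈ secSpace P₀ e 1 := by
  rw [← hφ.span_eq]
  exact Submodule.subset_span ⟨a, rfl⟩

/-- a section of `V_k` divided by the `k`-th power of the pivot is regular at `P` -/
theorem ord_div_pivot_pow_nonneg (h : IsRRField Qbar F) (hφ : IsEmbBasis P₀ e φ)
    (he : 2 * genusFF Qbar F ≤ e) (k : ℕ) (P : Place Qbar F) {s : F}
    (hs : s ∈ secSpace P₀ e k) : 0 ≤ P.ord (s / φ (pivot φ P) ^ k) := by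
  rcases eq_or_ne s 0 with rfl | hs0
  · rw [zero_div, P.ord_zero]
  · rw [ord_div_pivot_pow h hφ he k hs0 P]
    exact zdiv_nonneg h k hs hs0 P

/-- products of sections of `V_1` -/
theorem prod_mem_secSpace_card {α : Type*} (t : Finset α) (s : α → F)
    (hs : ∀ i ∈ t, s i ∈ secSpace P₀ e 1) : ∏ i ∈ t, s i ∈ secSpace P₀ e t.card := by
  classical
  induction t using Finset.induction_on with
  | empty =>
    rw [Finset.prod_empty, Finset.card_empty]
    exact one_mem_secSpace_zero
  | insert a t ha ih =>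
    rw [Finset.prod_insert ha, Finset.card_insert_of_notMem ha, add_comm]
    exact gauss_secSpace_mul_mem P₀ e 1 t.card (hs a (Finset.mem_insert_self a t))
      (ih fun i hi => hs i (Finset.mem_insert_of_mem hi))

theorem sval_zero (k : ℕ) (P : Place Qbar F) : sval φ k P (0 : F) = 0 := by
  unfold sval val
  rw [zero_div]
  exact Pts.ev_zero P

theorem sval_one (P : Place Qbar F) : sval φ 0 P (1 : F) = 1 := by
  unfold sval val
  rw [pow_zero, div_one]
  exact Pts.ev_one P

theorem linForm_mem (hφ : IsEmbBasis P₀ e φ) (x : Fin (r + 1) → Qbar) (p : Pair r) :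
    linForm φ x p ∈ secSpace P₀ e 1 := by
  unfold linForm
  rw [← Algebra.smul_def, ← Algebra.smul_def]
  exact Submodule.sub_mem _ (Submodule.smul_mem _ _ (phi_mem_secSpace_one hφ _))
    (Submodule.smul_mem _ _ (phi_mem_secSpace_one hφ _))

theorem prodLin_mem (hφ : IsEmbBasis P₀ e φ) {N : ℕ} (x : Fin N → Fin (r + 1) → Qbar)
    (μ : Fin N → Pair r) : prodLin φ x μ ∈ secSpace P₀ e N := by
  have := prod_mem_secSpace_card (P₀ := P₀) (e := e) Finset.univ
    (fun i => linForm φ (x i) (μ i)) (fun i _ => linForm_mem hφ (x i) (μ i))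
  rwa [Finset.card_univ, Fintype.card_fin] at this

theorem sval_add (h : IsRRField Qbar F) (hφ : IsEmbBasis P₀ e φ)
    (he : 2 * genusFF Qbar F ≤ e) (k : ℕ) (P : Place Qbar F) {s s' : F}
    (hs : s ∈ secSpace P₀ e k) (hs' : s' ∈ secSpace P₀ e k) :
    sval φ k P (s + s') = sval φ k P s + sval φ k P s' := by
  unfold sval val
  rw [add_div]
  exact Pts.ev_add h P (ord_div_pivot_pow_nonneg h hφ he k P hs)
    (ord_div_pivot_pow_nonneg h hφ he k P hs')

theorem sval_smul (h : IsRRField Qbar F) (hφ : IsEmbBasis P₀ e φ)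
    (he : 2 * genusFF Qbar F ≤ e) (k : ℕ) (P : Place Qbar F) (a : Qbar) {s : F}
    (hs : s ∈ secSpace P₀ e k) :
    sval φ k P (a • s) = a * sval φ k P s := by
  unfold sval val
  rw [smul_div_assoc]
  exact Pts.ev_smul_const h P a (ord_div_pivot_pow_nonneg h hφ he k P hs)

theorem sval_sum (h : IsRRField Qbar F) (hφ : IsEmbBasis P₀ e φ)
    (he : 2 * genusFF Qbar F ≤ e) (k : ℕ) (P : Place Qbar F) {α : Type*} (t : Finset α)
    (a : α → Qbar) (s : α → F) (hs : ∀ i ∈ t, s i ∈ secSpace P₀ e k) :
    sval φ k P (∑ i ∈ t, a i • s i) = ∑ i ∈ t, a i * sval φ k P (s i) := by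
  classical
  induction t using Finset.induction_on with
  | empty =>
    rw [Finset.sum_empty, Finset.sum_empty]
    exact sval_zero k P
  | insert b t hb ih =>
    rw [Finset.sum_insert hb, Finset.sum_insert hb,
      sval_add h hφ he k P (Submodule.smul_mem _ _ (hs b (Finset.mem_insert_self b t)))
        (Submodule.sum_mem _ fun i hi =>
          Submodule.smul_mem _ _ (hs i (Finset.mem_insert_of_mem hi))),
      sval_smul h hφ he k P (a b) (hs b (Finset.mem_insert_self b t)),
      ih fun i hi => hs i (Finset.mem_insert_of_mem hi)]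

theorem sval_mul (h : IsRRField Qbar F) (hφ : IsEmbBasis P₀ e φ)
    (he : 2 * genusFF Qbar F ≤ e) (P : Place Qbar F) {k k' : ℕ} {s s' : F}
    (hs : s ∈ secSpace P₀ e k) (hs' : s' ∈ secSpace P₀ e k') :
    sval φ (k + k') P (s * s') = sval φ k P s * sval φ k' P s' :=
  val_section_mul h hφ he P hs hs'

theorem sval_linForm (h : IsRRField Qbar F) (hφ : IsEmbBasis P₀ e φ)
    (P : Place Qbar F) (x : Fin (r + 1) → Qbar) (p : Pair r) :
    sval φ 1 P (linForm φ x p) = x p.2 * coord φ P p.1 - x p.1 * coord φ P p.2 := by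
  have hS : (C (x p.2) * X p.1 - C (x p.1) * X p.2 :
      MvPolynomial (Fin (r + 1)) Qbar).IsHomogeneous 1 :=
    (MvPolynomial.isHomogeneous_C_mul_X (x p.2) p.1).sub
      (MvPolynomial.isHomogeneous_C_mul_X (x p.1) p.2)
  have h1 := val_polyRep h hφ P hS
  have h2 : aeval φ (C (x p.2) * X p.1 - C (x p.1) * X p.2 :
      MvPolynomial (Fin (r + 1)) Qbar) = linForm φ x p := by
    unfold linForm
    simp
  rw [h2] at h1
  unfold sval
  rw [h1]
  simp

theorem sval_prodLin (h : IsRRField Qbar F) (hφ : IsEmbBasis P₀ e φ)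
    (he : 2 * genusFF Qbar F ≤ e) (P : Place Qbar F) {N : ℕ} (x : Fin N → Fin (r + 1) → Qbar)
    (μ : Fin N → Pair r) :
    sval φ N P (prodLin φ x μ)
      = ∏ i, (x i (μ i).2 * coord φ P (μ i).1 - x i (μ i).1 * coord φ P (μ i).2) := by
  classical
  have key : ∀ t : Finset (Fin N), sval φ t.card P (∏ i ∈ t, linForm φ (x i) (μ i))
      = ∏ i ∈ t, (x i (μ i).2 * coord φ P (μ i).1 - x i (μ i).1 * coord φ P (μ i).2) := by
    intro t
    induction t using Finset.induction_on with
    | empty =>
      rw [Finset.prod_empty, Finset.prod_empty, Finset.card_empty]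
      exact sval_one P
    | insert a t ha ih =>
      rw [Finset.prod_insert ha, Finset.prod_insert ha, Finset.card_insert_of_notMem ha,
        add_comm t.card 1,
        sval_mul h hφ he P (linForm_mem hφ (x a) (μ a))
          (prod_mem_secSpace_card t _ fun i _ => linForm_mem hφ (x i) (μ i)),
        sval_linForm h hφ P, ih]
  have := key Finset.univ
  rw [Finset.card_univ, Fintype.card_fin] at this
  exact this

/-- a section is zero if it vanishes at more than `k e` places -/
theorem eq_zero_of_sval_eq_zero (h : IsRRField Qbar F) (hφ : IsEmbBasis P₀ e φ)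
    (he : 2 * genusFF Qbar F ≤ e) (k : ℕ) {s : F} (hs : s ∈ secSpace P₀ e k) {E : ℕ}
    (Q : Fin E → Place Qbar F) (hQ : Function.Injective Q) (hE : k * e < E)
    (hval : ∀ ρ, sval φ k (Q ρ) s = 0) : s = 0 := by
  classical
  refine eq_zero_of_val_eq_zero h hφ he k hs (Finset.univ.image Q) ?_ ?_
  · rw [Finset.card_image_of_injective _ hQ, Finset.card_univ, Fintype.card_fin]
    exact hE
  · intro P hP
    rw [Finset.mem_image] at hP
    obtain ⟨ρ, -, rfl⟩ := hP
    exact hval ρ

/-- the value of a nonzero section is nonzero iff the place is not a zero of the section -/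
theorem sval_ne_zero_iff (h : IsRRField Qbar F) (hφ : IsEmbBasis P₀ e φ)
    (he : 2 * genusFF Qbar F ≤ e) (k : ℕ) (P : Place Qbar F) {s : F}
    (hs : s ∈ secSpace P₀ e k) (hs0 : s ≠ 0) :
    sval φ k P s ≠ 0 ↔ zdiv h P₀ e k s P = 0 := by
  have hne : s / φ (pivot φ P) ^ k ≠ 0 := div_ne_zero hs0 (pow_ne_zero _ (hφ.ne_zero _))
  have hord := ord_div_pivot_pow_nonneg h hφ he k P hs
  have hiff := Pts.ev_eq_zero_iff h P hne hord
  have heq := ord_div_pivot_pow h hφ he k hs0 P
  unfold sval val
  rw [Ne, hiff, ← heq]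
  omega

end Fermat.Agent.S17.L7
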