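import Mathlib
import Fermat.Agent.S17.H.L7.GeomA

/-!
# S17/H seat L7, piece D3b (second half): products of linear forms with prescribed zeros

* `Z2.zdiv_mul`, `Z2.zdiv_prod` : the zero divisor is additive on products of sections.
* `Z2.exists_pair_zdiv_eq_zero`, `Z2.exists_pair_zdiv_eq_one` : linear forms through a point `c`
  which do not vanish at `Q ≠ c`, resp. vanish simply at `c`.
* `Z2.exists_mu_zdiv_prodLin` : for every place `Q` a product of linear forms through the points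
  `c i` whose zero divisor has multiplicity exactly `cnt c Q` at `Q`.
* `Z2.cnt_of_forall_quot_pf` (G6), `Z2.exists_mu_sval_ne_zero_pf` (G7).
-/

set_option autoImplicit false
set_option linter.unusedSectionVars false
set_option linter.unusedVariables false

noncomputable section

open AlgebraicCurve MvPolynomial

namespace Fermat.Agent.S17.L7.Z2

open Fermat.Agent.RR

variable {F : Type*} [Field F] [Algebra Qbar F]
variable {P₀ : Place Qbar F} {e r : ℕ} {φ : Fin (r + 1) → F}

/-- the zero divisor is additive on products -/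
theorem zdiv_mul (h : IsRRField Qbar F) (P₀ : Place Qbar F) (e j k : ℕ) {f g : F}
    (hf : f ≠ 0) (hg : g ≠ 0) (Q : Place Qbar F) :
    zdiv h P₀ e (j + k) (f * g) Q = zdiv h P₀ e j f Q + zdiv h P₀ e k g Q := by
  classical
  rw [zdiv_apply, zdiv_apply, zdiv_apply, Q.ord_mul hf hg, Finsupp.single_apply,
    Finsupp.single_apply, Finsupp.single_apply]
  split_ifs <;> push_cast <;> ring

theorem zdiv_one_eq_zero (h : IsRRField Qbar F) (P₀ : Place Qbar F) (e : ℕ) (Q : Place Qbar F) :
    zdiv h P₀ e 0 (1 : F) Q = 0 := by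
  classical
  have h1 : Q.ord (1 : F) = 0 := by
    have := Fermat.Agent.S24Res.ord_algebraMap Q (1 : Qbar)
    rwa [map_one] at this
  rw [zdiv_apply, h1, Finsupp.single_apply]
  split_ifs <;> simp

/-- the zero divisor of a product of sections of `V_1` -/
theorem zdiv_prod (h : IsRRField Qbar F) (P₀ : Place Qbar F) (e : ℕ) {α : Type*}
    (t : Finset α) (g : α → F) (hg : ∀ i ∈ t, g i ≠ 0) (Q : Place Qbar F) :
    zdiv h P₀ e t.card (∏ i ∈ t, g i) Q = ∑ i ∈ t, zdiv h P₀ e 1 (g i) Q := by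
  classical
  induction t using Finset.induction_on with
  | empty =>
    rw [Finset.prod_empty, Finset.sum_empty, Finset.card_empty]
    exact zdiv_one_eq_zero h P₀ e Q
  | insert a t ha ih =>
    rw [Finset.prod_insert ha, Finset.sum_insert ha, Finset.card_insert_of_notMem ha,
      add_comm t.card 1,
      zdiv_mul h P₀ e 1 t.card (hg a (Finset.mem_insert_self a t))
        (Finset.prod_ne_zero_iff.2 fun i hi => hg i (Finset.mem_insert_of_mem hi)),
      ih fun i hi => hg i (Finset.mem_insert_of_mem hi)]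

/-- a linear form through `c` which does not vanish at `Q ≠ c` -/
theorem exists_pair_zdiv_eq_zero (h : IsRRField Qbar F) (hφ : IsEmbBasis P₀ e φ)
    (he : 2 * genusFF Qbar F + 1 ≤ e) {Q c : Place Qbar F} (hQc : c ≠ Q) {lam : Qbar}
    (hlam : lam ≠ 0) :
    ∃ p : Pair r, linForm φ (lam • coord φ c) p ≠ 0 ∧
      zdiv h P₀ e 1 (linForm φ (lam • coord φ c) p) Q = 0 := by
  have he' : 2 * genusFF Qbar F ≤ e := by omega
  obtain ⟨a, b, hab⟩ := hφ.exists_minor_ne_zero h he (Ne.symm hQc)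
  have hval : sval φ 1 Q (linForm φ (lam • coord φ c) (a, b)) ≠ 0 := by
    rw [sval_linForm h hφ Q]
    show lam • coord φ c b * coord φ Q a - lam • coord φ c a * coord φ Q b ≠ 0
    have : lam • coord φ c b * coord φ Q a - lam • coord φ c a * coord φ Q b
        = lam * (coord φ Q a * coord φ c b - coord φ Q b * coord φ c a) := by
      simp only [smul_eq_mul]
      ring
    rw [this]
    exact mul_ne_zero hlam hab
  have hne : linForm φ (lam • coord φ c) (a, b) ≠ 0 := by
    intro h0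
    rw [h0] at hval
    exact hval (sval_zero 1 Q)
  exact ⟨(a, b), hne, (sval_ne_zero_iff h hφ he' 1 Q (linForm_mem hφ _ _) hne).1 hval⟩

/-- a linear form through `c` with a simple zero at `c` -/
theorem exists_pair_zdiv_eq_one (h : IsRRField Qbar F) (hφ : IsEmbBasis P₀ e φ)
    (he : 2 * genusFF Qbar F + 1 ≤ e) (c : Place Qbar F) {lam : Qbar} (hlam : lam ≠ 0) :
    ∃ p : Pair r, linForm φ (lam • coord φ c) p ≠ 0 ∧
      zdiv h P₀ e 1 (linForm φ (lam • coord φ c) p) c = 1 := by
  have he' : 2 * genusFF Qbar F ≤ e := by omega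
  obtain ⟨a, ha0, hord⟩ := imm_exists_simple_coord h (Finsupp.single P₀ (e : ℤ)) c
    (by rw [imm_degree_single h]; exact_mod_cast he) φ hφ.span_eq'
    (pivot φ c) (hφ.ne_zero _) (hφ.ord_pivot h he' c)
  have hlam' : algebraMap Qbar F lam ≠ 0 := by
    rw [Ne, map_eq_zero]
    exact hlam
  have hl : linForm φ (lam • coord φ c) (a, pivot φ c)
      = algebraMap Qbar F lam * (φ a - Pts.ev c (φ a / φ (pivot φ c)) • φ (pivot φ c)) := by
    unfold linForm
    show algebraMap Qbar F (lam • coord φ c (pivot φ c)) * φ a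
      - algebraMap Qbar F (lam • coord φ c a) * φ (pivot φ c) = _
    rw [hφ.coord_pivot c, smul_eq_mul, smul_eq_mul, mul_one, map_mul, Algebra.smul_def]
    show _ - algebraMap Qbar F lam * algebraMap Qbar F (Pts.ev c (φ a / φ (pivot φ c)))
      * φ (pivot φ c) = _
    ring
  have hne : linForm φ (lam • coord φ c) (a, pivot φ c) ≠ 0 := by
    rw [hl]
    exact mul_ne_zero hlam' ha0
  refine ⟨(a, pivot φ c), hne, ?_⟩
  rw [← ord_div_pivot_pow h hφ he' 1 hne c, pow_one, hl, mul_div_assoc,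
    c.ord_mul hlam' (div_ne_zero ha0 (hφ.ne_zero _)), Fermat.Agent.S24Res.ord_algebraMap,
    zero_add, hord]

/-- for every place `Q` a product of linear forms through the points `c i` whose zero divisor has
multiplicity exactly `cnt c Q` at `Q` -/
theorem exists_mu_zdiv_prodLin (h : IsRRField Qbar F) (hφ : IsEmbBasis P₀ e φ)
    (he : 2 * genusFF Qbar F + 1 ≤ e) {N : ℕ} (c : Fin N → Place Qbar F) (lam : Fin N → Qbar)
    (hlam : ∀ i, lam i ≠ 0) (Q : Place Qbar F) :
    ∃ μ : Fin N → Pair r, prodLin φ (fun i => lam i • coord φ (c i)) μ ≠ 0 ∧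
      zdiv h P₀ e N (prodLin φ (fun i => lam i • coord φ (c i)) μ) Q = (cnt c Q : ℤ) := by
  classical
  have hex : ∀ i : Fin N, ∃ p : Pair r, linForm φ (lam i • coord φ (c i)) p ≠ 0 ∧
      zdiv h P₀ e 1 (linForm φ (lam i • coord φ (c i)) p) Q = if c i = Q then 1 else 0 := by
    intro i
    by_cases hi : c i = Q
    · obtain ⟨p, hp, hp1⟩ := exists_pair_zdiv_eq_one h hφ he (c i) (hlam i)
      refine ⟨p, hp, ?_⟩
      rw [if_pos hi, ← hi]
      exact hp1
    · obtain ⟨p, hp, hp0⟩ := exists_pair_zdiv_eq_zero h hφ he hi (hlam i)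
      exact ⟨p, hp, by rw [if_neg hi]; exact hp0⟩
  choose μ hμ0 hμ using hex
  refine ⟨μ, Finset.prod_ne_zero_iff.2 fun i _ => hμ0 i, ?_⟩
  have h1 := zdiv_prod h P₀ e (Finset.univ : Finset (Fin N))
    (fun i => linForm φ (lam i • coord φ (c i)) (μ i)) (fun i _ => hμ0 i) Q
  rw [Finset.card_univ, Fintype.card_fin] at h1
  unfold prodLin
  rw [h1, Finset.sum_congr rfl fun i _ => hμ i, Finset.sum_boole]
  unfold cnt
  congr 2

/-- the divisor `Σ_i [c i]` -/
theorem exists_divisor_cnt {N : ℕ} (h : IsRRField Qbar F) (c : Fin N → Place Qbar F) :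
    ∃ C : Divisor Qbar F, (∀ Q, C Q = (cnt c Q : ℤ)) ∧ Divisor.degree C = (N : ℤ) := by
  classical
  refine ⟨∑ i, Finsupp.single (c i) (1 : ℤ), fun Q => ?_, ?_⟩
  · rw [Finsupp.finsetSum_apply]
    simp only [Finsupp.single_apply]
    rw [Finset.sum_boole]
    unfold cnt
    congr 2
  · rw [map_sum]
    simp only [degree_single_one h]
    simp

/-- (G6) if all products of linear forms through the points `c i` are divisible by `f`, the
`c i` are the zeros of `f`. -/
theorem cnt_of_forall_quot_pf (h : IsRRField Qbar F) (hφ : IsEmbBasis P₀ e φ)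
    (he : 2 * genusFF Qbar F + 1 ≤ e) (j : ℕ) {f : F} (hf : f ∈ secSpace P₀ e j) (hf0 : f ≠ 0)
    (c : Fin (j * e) → Place Qbar F) (lam : Fin (j * e) → Qbar) (hlam : ∀ i, lam i ≠ 0)
    (hq : ∀ μ : Fin (j * e) → Pair r, ∃ k, k ∈ secSpace P₀ e (j * e - j) ∧
      f * k = prodLin φ (fun i => lam i • coord φ (c i)) μ) :
    ∀ Q, zdiv h P₀ e j f Q = (cnt c Q : ℤ) := by
  classical
  have he1 : 1 ≤ e := by omega
  have hN : j + (j * e - j) = j * e := by
    have : j ≤ j * e := Nat.le_mul_of_pos_right j he1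
    omega
  have hle : ∀ Q, zdiv h P₀ e j f Q ≤ (cnt c Q : ℤ) := by
    intro Q
    obtain ⟨μ, hμ0, hμ⟩ := exists_mu_zdiv_prodLin (P₀ := P₀) h hφ he c lam hlam Q
    obtain ⟨k, hk, hfk⟩ := hq μ
    have hk0 : k ≠ 0 := by
      rintro rfl
      rw [mul_zero] at hfk
      exact hμ0 hfk.symm
    have h1 := zdiv_mul h P₀ e j (j * e - j) hf0 hk0 Q
    rw [hN, hfk, hμ] at h1
    have h2 := zdiv_nonneg h (j * e - j) hk hk0 Q
    omega
  obtain ⟨C, hC, hCdeg⟩ := exists_divisor_cnt h c
  have hCle : zdiv h P₀ e j f ≤ C := Finsupp.le_def.2 fun Q => by rw [hC]; exact hle Q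
  have h0 : C - zdiv h P₀ e j f = 0 := by
    refine eq_zero_of_nonneg_of_degree_eq_zero h (sub_nonneg.2 hCle) ?_
    rw [map_sub, hCdeg, degree_zdiv h j f, sub_self]
  intro Q
  have := congrArg (fun D : Divisor Qbar F => D Q) h0
  simp only [Finsupp.sub_apply, Finsupp.zero_apply] at this
  rw [← hC]
  omega

/-- (G7) some quotient does not vanish at `P` -/
theorem exists_mu_sval_ne_zero_pf (h : IsRRField Qbar F) (hφ : IsEmbBasis P₀ e φ)
    (he : 2 * genusFF Qbar F + 1 ≤ e) (j : ℕ) {f : F} (hf : f ∈ secSpace P₀ e j) (hf0 : f ≠ 0)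
    (c : Fin (j * e) → Place Qbar F) (lam : Fin (j * e) → Qbar) (hlam : ∀ i, lam i ≠ 0)
    (hc : ∀ Q, zdiv h P₀ e j f Q = (cnt c Q : ℤ)) (P : Place Qbar F) :
    ∃ μ : Fin (j * e) → Pair r, ∀ k, k ∈ secSpace P₀ e (j * e - j) →
      f * k = prodLin φ (fun i => lam i • coord φ (c i)) μ → sval φ (j * e - j) P k ≠ 0 := by
  classical
  have he1 : 1 ≤ e := by omega
  have he' : 2 * genusFF Qbar F ≤ e := by omega
  have hN : j + (j * e - j) = j * e := by
    have : j ≤ j * e := Nat.le_mul_of_pos_right j he1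
    omega
  obtain ⟨μ, hμ0, hμ⟩ := exists_mu_zdiv_prodLin (P₀ := P₀) h hφ he c lam hlam P
  refine ⟨μ, fun k hk hfk => ?_⟩
  have hk0 : k ≠ 0 := by
    rintro rfl
    rw [mul_zero] at hfk
    exact hμ0 hfk.symm
  have h1 := zdiv_mul h P₀ e j (j * e - j) hf0 hk0 P
  rw [hN, hfk, hμ, hc P] at h1
  refine (sval_ne_zero_iff h hφ he' (j * e - j) P hk hk0).2 ?_
  omega

end Fermat.Agent.S17.L7.Z2
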