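import Mathlib
import Fermat.Agent.S17.H.L7.GeomA

/-!
# S17/H seat L7, piece D3b (first half): the zeros of a section, with multiplicity

* `geomB_exists_enum`   : an effective finitely supported function of total mass `n` is the
                          counting function of some `c : Fin n → α`;
* `geomB_zdiv_mul`, `geomB_zdiv_prod`, `geomB_zdiv_prodLin` : zero divisors of products;
* `geomB_one_le_zdiv_of_sval_eq_zero` : a section vanishing at `P` has `Z(P) ≥ 1`;
* `exists_zeros'`  (G4) : the zeros of a section of `V_j`, counted with multiplicity;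
* `exists_quot'`   (G5) : the product of linear forms through the zeros of `f` is divisible by `f`.
-/

set_option autoImplicit false
set_option linter.unusedSectionVars false
set_option linter.unusedVariables false

noncomputable section

open AlgebraicCurve MvPolynomial

namespace Fermat.Agent.S17.L7

open Fermat.Agent.RR

/-! ### enumeration of an effective divisor -/

theorem geomB_card_filter_cons {α : Type*} {n : ℕ} (a : α) (c : Fin n → α) (b : α) :
    open Classical in
    (Finset.univ.filter fun i : Fin (n + 1) => (Fin.cons a c : Fin (n + 1) → α) i = b).card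
      = (if a = b then 1 else 0) + (Finset.univ.filter fun i : Fin n => c i = b).card := by
  classical
  rw [Finset.card_filter, Finset.card_filter, Fin.sum_univ_succ]
  simp only [Fin.cons_zero, Fin.cons_succ]

theorem geomB_exists_enum {α : Type*} : ∀ (n : ℕ) (D : α →₀ ℤ), (∀ a, 0 ≤ D a) →
    Finsupp.degree D = (n : ℤ) →
    ∃ c : Fin n → α, ∀ a, D a = (open Classical in
      ((Finset.univ.filter fun i => c i = a).card : ℤ))
  | 0, D, hD, hn => by
    classical
    refine ⟨Fin.elim0, fun a => ?_⟩
    have h0 : D a = 0 := by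
      by_contra hne
      have hmem : a ∈ D.support := Finsupp.mem_support_iff.2 hne
      have h1 : D a ≤ ∑ b ∈ D.support, D b :=
        Finset.single_le_sum (f := fun b => D b) (fun b _ => hD b) hmem
      rw [Finsupp.degree_apply] at hn
      rw [hn] at h1
      have h2 := hD a
      push_cast at h1
      omega
    rw [h0]
    simp
  | n + 1, D, hD, hn => by
    classical
    have hne : D ≠ 0 := by
      rintro rfl
      rw [map_zero] at hn
      have : ((n + 1 : ℕ) : ℤ) ≠ 0 := by positivity
      exact this hn.symm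
    obtain ⟨a, ha⟩ := Finsupp.ne_iff.mp hne
    have ha' : D a ≠ 0 := ha
    have hpos : 0 < D a := lt_of_le_of_ne (hD a) (Ne.symm ha')
    obtain ⟨c', hc'⟩ := geomB_exists_enum n (D - Finsupp.single a 1) (fun b => by
        rw [Finsupp.sub_apply, Finsupp.single_apply]
        split_ifs with hab
        · subst hab
          omega
        · have := hD b
          omega) (by
        rw [map_sub, Finsupp.degree_single, hn]
        push_cast
        ring)
    refine ⟨Fin.cons a c', fun b => ?_⟩
    rw [geomB_card_filter_cons]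
    have h1 := hc' b
    rw [Finsupp.sub_apply, Finsupp.single_apply] at h1
    push_cast
    split_ifs at h1 ⊢ with hab
    · omega
    · omega

variable {F : Type*} [Field F] [Algebra Qbar F]
variable {P₀ : Place Qbar F} {e r : ℕ} {φ : Fin (r + 1) → F}

/-! ### zero divisors of products -/

theorem geomB_zdiv_mul (h : IsRRField Qbar F) (P₀ : Place Qbar F) (e j j' : ℕ) {f g : F}
    (hf : f ≠ 0) (hg : g ≠ 0) :
    zdiv h P₀ e (j + j') (f * g) = zdiv h P₀ e j f + zdiv h P₀ e j' g := by
  unfold zdiv
  rw [divOf_mul h hf hg]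
  have h1 : (((j + j') * e : ℕ) : ℤ) = ((j * e : ℕ) : ℤ) + ((j' * e : ℕ) : ℤ) := by
    push_cast
    ring
  rw [h1, Finsupp.single_add]
  abel

theorem geomB_zdiv_one (h : IsRRField Qbar F) (P₀ : Place Qbar F) (e : ℕ) :
    zdiv h P₀ e 0 (1 : F) = 0 := by
  unfold zdiv
  rw [divOf_one, zero_add, zero_mul, Nat.cast_zero, Finsupp.single_zero]

theorem geomB_zdiv_prod (h : IsRRField Qbar F) (P₀ : Place Qbar F) (e : ℕ) {ι : Type*}
    (t : Finset ι) (l : ι → F) (hl : ∀ i ∈ t, l i ≠ 0) :
    zdiv h P₀ e t.card (∏ i ∈ t, l i) = ∑ i ∈ t, zdiv h P₀ e 1 (l i) := by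
  classical
  induction t using Finset.induction_on with
  | empty =>
    rw [Finset.prod_empty, Finset.sum_empty, Finset.card_empty]
    exact geomB_zdiv_one h P₀ e
  | insert a t ha ih =>
    rw [Finset.prod_insert ha, Finset.sum_insert ha, Finset.card_insert_of_notMem ha,
      add_comm t.card 1,
      geomB_zdiv_mul h P₀ e 1 t.card (hl a (Finset.mem_insert_self a t))
        (Finset.prod_ne_zero_iff.mpr fun i hi => hl i (Finset.mem_insert_of_mem hi)),
      ih fun i hi => hl i (Finset.mem_insert_of_mem hi)]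

/-- the zero divisor of a product of linear forms is the sum of the zero divisors -/
theorem geomB_zdiv_prodLin (h : IsRRField Qbar F) (P₀ : Place Qbar F) (e : ℕ) {N : ℕ}
    (x : Fin N → Fin (r + 1) → Qbar) (μ : Fin N → Pair r)
    (hl : ∀ i, linForm φ (x i) (μ i) ≠ 0) (P : Place Qbar F) :
    zdiv h P₀ e N (prodLin φ x μ) P = ∑ i, zdiv h P₀ e 1 (linForm φ (x i) (μ i)) P := by
  have h1 := geomB_zdiv_prod h P₀ e Finset.univ (fun i => linForm φ (x i) (μ i))
    (fun i _ => hl i)
  rw [Finset.card_univ, Fintype.card_fin] at h1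
  unfold prodLin
  rw [h1, Finsupp.finsetSum_apply]

theorem geomB_prodLin_ne_zero_iff {N : ℕ} (x : Fin N → Fin (r + 1) → Qbar)
    (μ : Fin N → Pair r) :
    prodLin φ x μ ≠ 0 ↔ ∀ i, linForm φ (x i) (μ i) ≠ 0 := by
  unfold prodLin
  rw [Finset.prod_ne_zero_iff]
  exact ⟨fun h i => h i (Finset.mem_univ i), fun h i _ => h i⟩

/-- a nonzero section whose value at `P` is `0` has a zero at `P` -/
theorem geomB_one_le_zdiv_of_sval_eq_zero (h : IsRRField Qbar F) (hφ : IsEmbBasis P₀ e φ)
    (he : 2 * genusFF Qbar F ≤ e) (k : ℕ) (P : Place Qbar F) {s : F}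
    (hs : s ∈ secSpace P₀ e k) (hs0 : s ≠ 0) (hval : sval φ k P s = 0) :
    1 ≤ zdiv h P₀ e k s P := by
  have h0 := zdiv_nonneg h k hs hs0 P
  have hiff := sval_ne_zero_iff h hφ he k P hs hs0
  have hne : zdiv h P₀ e k s P ≠ 0 := fun hz => (hiff.mpr hz) hval
  omega

/-- the counting function as a sum of indicators -/
theorem geomB_cnt_eq_sum {N : ℕ} (c : Fin N → Place Qbar F) (Q : Place Qbar F) :
    open Classical in
    ((cnt c Q : ℕ) : ℤ) = ∑ i, (if c i = Q then (1 : ℤ) else 0) := by
  classical
  unfold cnt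
  rw [Finset.sum_boole]

/-! ### the zeros of a section, with multiplicity -/

/-- (G4) the zeros of a section of `V_j`, counted with multiplicity -/
theorem exists_zeros' (h : IsRRField Qbar F) (j : ℕ) {f : F} (hf : f ∈ secSpace P₀ e j)
    (hf0 : f ≠ 0) :
    ∃ c : Fin (j * e) → Place Qbar F, ∀ Q, zdiv h P₀ e j f Q = (cnt c Q : ℤ) := by
  have hdeg : Finsupp.degree (zdiv h P₀ e j f) = ((j * e : ℕ) : ℤ) := by
    rw [Finsupp.degree_apply, ← degree_eq_sum h]
    exact degree_zdiv h j f
  obtain ⟨c, hc⟩ := geomB_exists_enum (j * e) (zdiv h P₀ e j f)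
    (fun P => zdiv_nonneg h j hf hf0 P) hdeg
  exact ⟨c, fun Q => hc Q⟩

/-- (G5) the product of linear forms through the zeros of `f` is divisible by `f` -/
theorem exists_quot' (h : IsRRField Qbar F) (hφ : IsEmbBasis P₀ e φ)
    (he : 2 * genusFF Qbar F + 1 ≤ e) (j : ℕ) {f : F} (hf : f ∈ secSpace P₀ e j) (hf0 : f ≠ 0)
    (c : Fin (j * e) → Place Qbar F) (hc : ∀ Q, zdiv h P₀ e j f Q = (cnt c Q : ℤ))
    (μ : Fin (j * e) → Pair r) :
    ∃ k, k ∈ secSpace P₀ e (j * e - j) ∧ f * k = prodLin φ (fun i => coord φ (c i)) μ := by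
  classical
  have he' : 2 * genusFF Qbar F ≤ e := by omega
  have he1 : 1 ≤ e := by omega
  have hje : j ≤ j * e := Nat.le_mul_of_pos_right j he1
  rcases eq_or_ne (prodLin φ (fun i => coord φ (c i)) μ) 0 with hL0 | hL0
  · exact ⟨0, Submodule.zero_mem _, by rw [mul_zero, hL0]⟩
  · refine ⟨prodLin φ (fun i => coord φ (c i)) μ / f, ?_, mul_div_cancel₀ _ hf0⟩
    have hl := (geomB_prodLin_ne_zero_iff (φ := φ) (fun i => coord φ (c i)) μ).mp hL0
    unfold secSpace
    rw [mem_riemannRochSpace_iff]
    intro P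
    right
    rw [imm_ord_div P hL0 hf0]
    -- the zero divisor of the product dominates the counting function
    have h1 : ((cnt c P : ℕ) : ℤ)
        ≤ zdiv h P₀ e (j * e) (prodLin φ (fun i => coord φ (c i)) μ) P := by
      rw [geomB_zdiv_prodLin h P₀ e _ μ hl P, geomB_cnt_eq_sum]
      refine Finset.sum_le_sum fun i _ => ?_
      split_ifs with hi
      · refine geomB_one_le_zdiv_of_sval_eq_zero h hφ he' 1 P (linForm_mem hφ _ _) (hl i) ?_
        rw [sval_linForm h hφ, hi]
        ring
      · exact zdiv_nonneg h 1 (linForm_mem hφ _ _) (hl i) P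
    have h2 := hc P
    rw [zdiv_apply] at h1 h2
    have h3 : (((j * e - j) * e : ℕ) : ℤ) = ((j * e * e : ℕ) : ℤ) - ((j * e : ℕ) : ℤ) := by
      rw [Nat.sub_mul, Nat.cast_sub (Nat.mul_le_mul_right e hje)]
    rw [Finsupp.single_apply] at h1 h2 ⊢
    rw [h3]
    split_ifs at h1 h2 ⊢ with hP
    · linarith
    · linarith

end Fermat.Agent.S17.L7
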