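import Mathlib
import Fermat.Agent.S17.H.L7.GeomA
import Fermat.Agent.S17.H.L7.GeomZ2
import Fermat.Agent.S17.H.L7.GeomZeros

/-!
# S17/H seat L7, piece D3b: the zeros of a section, with multiplicity
-/

set_option autoImplicit false
set_option linter.unusedSectionVars false
set_option linter.unusedVariables false

noncomputable section

open AlgebraicCurve MvPolynomial

namespace Fermat.Agent.S17.L7

open Fermat.Agent.RR

variable {F : Type*} [Field F] [Algebra Qbar F]
variable {P₀ : Place Qbar F} {e r : ℕ} {φ : Fin (r + 1) → F}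

/-! ### the zeros of a section, with multiplicity -/

/-- (G4) the zeros of a section of `V_j`, counted with multiplicity -/
theorem exists_zeros (h : IsRRField Qbar F) (j : ℕ) {f : F} (hf : f ∈ secSpace P₀ e j)
    (hf0 : f ≠ 0) :
    ∃ c : Fin (j * e) → Place Qbar F, ∀ Q, zdiv h P₀ e j f Q = (cnt c Q : ℤ) :=
  exists_zeros' h j hf hf0

/-- (G5) the product of linear forms through the zeros of `f` is divisible by `f` -/
theorem exists_quot (h : IsRRField Qbar F) (hφ : IsEmbBasis P₀ e φ)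
    (he : 2 * genusFF Qbar F + 1 ≤ e) (j : ℕ) {f : F} (hf : f ∈ secSpace P₀ e j) (hf0 : f ≠ 0)
    (c : Fin (j * e) → Place Qbar F) (hc : ∀ Q, zdiv h P₀ e j f Q = (cnt c Q : ℤ))
    (μ : Fin (j * e) → Pair r) :
    ∃ k, k ∈ secSpace P₀ e (j * e - j) ∧ f * k = prodLin φ (fun i => coord φ (c i)) μ :=
  exists_quot' h hφ he j hf hf0 c hc μ

/-- (G6) conversely: if all products of linear forms through the points `c i` are divisible by
`f`, the `c i` are the zeros of `f`. -/
theorem cnt_of_forall_quot (h : IsRRField Qbar F) (hφ : IsEmbBasis P₀ e φ)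
    (he : 2 * genusFF Qbar F + 1 ≤ e) (j : ℕ) {f : F} (hf : f ∈ secSpace P₀ e j) (hf0 : f ≠ 0)
    (c : Fin (j * e) → Place Qbar F) (lam : Fin (j * e) → Qbar) (hlam : ∀ i, lam i ≠ 0)
    (hq : ∀ μ : Fin (j * e) → Pair r, ∃ k, k ∈ secSpace P₀ e (j * e - j) ∧
      f * k = prodLin φ (fun i => lam i • coord φ (c i)) μ) :
    ∀ Q, zdiv h P₀ e j f Q = (cnt c Q : ℤ) :=
  Z2.cnt_of_forall_quot_pf h hφ he j hf hf0 c lam hlam hq

/-- (G7) some quotient does not vanish at `P` -/
theorem exists_mu_sval_ne_zero (h : IsRRField Qbar F) (hφ : IsEmbBasis P₀ e φ)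
    (he : 2 * genusFF Qbar F + 1 ≤ e) (j : ℕ) {f : F} (hf : f ∈ secSpace P₀ e j) (hf0 : f ≠ 0)
    (c : Fin (j * e) → Place Qbar F) (lam : Fin (j * e) → Qbar) (hlam : ∀ i, lam i ≠ 0)
    (hc : ∀ Q, zdiv h P₀ e j f Q = (cnt c Q : ℤ)) (P : Place Qbar F) :
    ∃ μ : Fin (j * e) → Pair r, ∀ k, k ∈ secSpace P₀ e (j * e - j) →
      f * k = prodLin φ (fun i => lam i • coord φ (c i)) μ → sval φ (j * e - j) P k ≠ 0 :=
  Z2.exists_mu_sval_ne_zero_pf h hφ he j hf hf0 c lam hlam hc P

end Fermat.Agent.S17.L7
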