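import Mathlib
import Fermat.Agent.S17.H.L7.GeomA

/-!
# S17/H seat L7, piece D3c: the leading coefficient identity, the sum of local heights

Owner: helper63.  Sorry-free.
-/

set_option autoImplicit false
set_option linter.unusedSectionVars false
set_option linter.unusedVariables false

noncomputable section

open AlgebraicCurve MvPolynomial

namespace Fermat.Agent.S17.L7

open Fermat.Agent.RR

variable {F : Type*} [Field F] [Algebra Qbar F]
variable {P₀ : Place Qbar F} {e r : ℕ} {φ : Fin (r + 1) → F}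

/-- values and orders of finite products of functions which are regular at `P` -/
theorem val_prod_of_ord_nonneg (h : IsRRField Qbar F) (P : Place Qbar F) {α : Type*}
    (t : Finset α) (g : α → F) (hg : ∀ i ∈ t, 0 ≤ P.ord (g i)) :
    0 ≤ P.ord (∏ i ∈ t, g i) ∧ val P (∏ i ∈ t, g i) = ∏ i ∈ t, val P (g i) := by
  classical
  induction t using Finset.induction_on with
  | empty =>
    rw [Finset.prod_empty, Finset.prod_empty]
    refine ⟨?_, Pts.ev_one P⟩
    have := Fermat.Agent.S24Res.ord_algebraMap P (1 : Qbar)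
    rw [map_one] at this
    exact this.ge
  | insert a t ha ih =>
    have h1 := hg a (Finset.mem_insert_self a t)
    obtain ⟨h2, h3⟩ := ih fun i hi => hg i (Finset.mem_insert_of_mem hi)
    rw [Finset.prod_insert ha, Finset.prod_insert ha]
    refine ⟨?_, ?_⟩
    · exact Fermat.Agent.S24Res.ord_nonneg_of_mem P
        (mul_mem (Fermat.Agent.S24Res.mem_of_ord_nonneg P h1)
          (Fermat.Agent.S24Res.mem_of_ord_nonneg P h2))
    · unfold val at h3 ⊢
      rw [Pts.ev_mul h P h1 h2, h3]

/-- the linear form through `P` vanishes at `P`: `l / (φ_pivot π)` is regular at `P` -/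
theorem ord_linForm_self_div (h : IsRRField Qbar F) (hφ : IsEmbBasis P₀ e φ)
    (he : 2 * genusFF Qbar F ≤ e) (P : Place Qbar F) {π : F} (hπ : P.ord π = 1) (p : Pair r) :
    0 ≤ P.ord (linForm φ (coord φ P) p / (φ (pivot φ P) * π)) := by
  have hu : φ (pivot φ P) ≠ 0 := hφ.ne_zero _
  have hπ0 : π ≠ 0 := by
    rintro rfl
    rw [P.ord_zero] at hπ
    exact zero_ne_one hπ
  rcases eq_or_ne (linForm φ (coord φ P) p) 0 with h0 | h0
  · rw [h0, zero_div, P.ord_zero]
  · have hmem := linForm_mem (P₀ := P₀) (e := e) hφ (coord φ P) p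
    have hval : sval φ 1 P (linForm φ (coord φ P) p) = 0 := by
      rw [sval_linForm h hφ P]
      ring
    have hne : linForm φ (coord φ P) p / φ (pivot φ P) ^ 1 ≠ 0 :=
      div_ne_zero h0 (pow_ne_zero _ hu)
    have hord := ord_div_pivot_pow_nonneg h hφ he 1 P hmem
    have hpos := (Pts.ev_eq_zero_iff h P hne hord).mp hval
    rw [pow_one] at hpos
    have heq : linForm φ (coord φ P) p / (φ (pivot φ P) * π)
        = (linForm φ (coord φ P) p / φ (pivot φ P)) / π := by
      rw [div_div]
    rw [heq, imm_ord_div P (div_ne_zero h0 hu) hπ0, hπ]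
    omega

/-- (G8) the leading coefficient identity -/
theorem lead_identity (h : IsRRField Qbar F) (hφ : IsEmbBasis P₀ e φ)
    (he : 2 * genusFF Qbar F + 1 ≤ e) (j : ℕ) {f : F} (hf : f ∈ secSpace P₀ e j) (hf0 : f ≠ 0)
    (c : Fin (j * e) → Place Qbar F) (hc : ∀ Q, zdiv h P₀ e j f Q = (cnt c Q : ℤ))
    (P : Place Qbar F) {π : F} (hπ : P.ord π = 1) (m : ℕ) (hm : (m : ℤ) = zdiv h P₀ e j f P)
    (μ : Fin (j * e) → Pair r) {k : F} (hk : k ∈ secSpace P₀ e (j * e - j))
    (hfk : f * k = prodLin φ (fun i => coord φ (c i)) μ) :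
    open Classical in
    val P (f / (φ (pivot φ P) ^ j * π ^ m)) * sval φ (j * e - j) P k
      = (∏ i ∈ Finset.univ.filter (fun i => c i = P),
            val P (linForm φ (coord φ P) (μ i) / (φ (pivot φ P) * π)))
        * ∏ i ∈ Finset.univ.filter (fun i => c i ≠ P),
            sval φ 1 P (linForm φ (coord φ (c i)) (μ i)) := by
  classical
  have he2 : 2 * genusFF Qbar F ≤ e := by omega
  have he1 : 1 ≤ e := by omega
  set u := φ (pivot φ P) with hu_def
  have hu : u ≠ 0 := hφ.ne_zero _
  have hπ0 : π ≠ 0 := by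
    rintro rfl
    rw [P.ord_zero] at hπ
    exact zero_ne_one hπ
  -- the two index sets
  set IP : Finset (Fin (j * e)) := Finset.univ.filter (fun i => c i = P) with hIP
  set IQ : Finset (Fin (j * e)) := Finset.univ.filter (fun i => c i ≠ P) with hIQ
  have hmcard : IP.card = m := by
    have h1 : (m : ℤ) = (cnt c P : ℤ) := by rw [hm, hc P]
    have h2 : m = cnt c P := by exact_mod_cast h1
    rw [h2]
    unfold cnt
    rw [hIP]
  have hcard : IP.card + IQ.card = j * e := by
    have := Finset.card_filter_add_card_filter_not (s := (Finset.univ : Finset (Fin (j * e))))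
      (p := fun i => c i = P)
    rw [Finset.card_univ, Fintype.card_fin] at this
    exact this
  have hjle : j ≤ j * e := Nat.le_mul_of_pos_right j he1
  -- regularity of the factors
  have hA : P.ord (f / (u ^ j * π ^ m)) = 0 := hφ.ord_lead h he2 j P hπ hf0 m hm
  have hB : 0 ≤ P.ord (k / u ^ (j * e - j)) := ord_div_pivot_pow_nonneg h hφ he2 _ P hk
  have hgP : ∀ i ∈ IP, 0 ≤ P.ord (linForm φ (coord φ P) (μ i) / (u * π)) := fun i _ =>
    ord_linForm_self_div h hφ he2 P hπ (μ i)
  have hgQ : ∀ i ∈ IQ, 0 ≤ P.ord (linForm φ (coord φ (c i)) (μ i) / u ^ 1) := fun i _ =>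
    ord_div_pivot_pow_nonneg h hφ he2 1 P (linForm_mem hφ _ _)
  obtain ⟨hoP, hvP⟩ := val_prod_of_ord_nonneg h P IP _ hgP
  obtain ⟨hoQ, hvQ⟩ := val_prod_of_ord_nonneg h P IQ _ hgQ
  -- the algebraic identity
  have hprod : f / (u ^ j * π ^ m) * (k / u ^ (j * e - j))
      = (∏ i ∈ IP, linForm φ (coord φ P) (μ i) / (u * π))
        * ∏ i ∈ IQ, linForm φ (coord φ (c i)) (μ i) / u ^ 1 := by
    have hsplit : prodLin φ (fun i => coord φ (c i)) μ
        = (∏ i ∈ IP, linForm φ (coord φ P) (μ i))
          * ∏ i ∈ IQ, linForm φ (coord φ (c i)) (μ i) := by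
      unfold prodLin
      rw [← Finset.prod_filter_mul_prod_filter_not Finset.univ (fun i => c i = P)]
      congr 1
      refine Finset.prod_congr rfl fun i hi => ?_
      have hci : c i = P := (Finset.mem_filter.mp hi).2
      change linForm φ (coord φ (c i)) (μ i) = _
      rw [hci]
    rw [Finset.prod_div_distrib, Finset.prod_div_distrib, Finset.prod_const, Finset.prod_const,
      hmcard, div_mul_div_comm, div_mul_div_comm, hfk, hsplit]
    congr 1
    have hexp : j * e - j + j = m + IQ.card := by omega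
    calc u ^ j * π ^ m * u ^ (j * e - j) = u ^ (j * e - j + j) * π ^ m := by
          rw [pow_add]; ring
      _ = u ^ (m + IQ.card) * π ^ m := by rw [hexp]
      _ = (u * π) ^ m * (u ^ 1) ^ IQ.card := by
          rw [pow_add, mul_pow, pow_one]; ring
  unfold sval
  change Pts.ev P (f / (u ^ j * π ^ m)) * Pts.ev P (k / u ^ (j * e - j)) = _
  rw [← Pts.ev_mul h P hA.ge hB, hprod]
  have := Pts.ev_mul h P hoP hoQ
  unfold val at hvP hvQ
  rw [this, hvP, hvQ]

/-- (G10) the sum of the local heights over the zeros -/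
theorem gsum_eq_sum (h : IsRRField Qbar F) (𝔸 : AbsSys) (v : 𝔸.ι) (j : ℕ) {f : F}
    (c : Fin (j * e) → Place Qbar F) (hc : ∀ Q, zdiv h P₀ e j f Q = (cnt c Q : ℤ))
    (P : Place Qbar F) :
    open Classical in
    gsum 𝔸 v φ P (zdiv h P₀ e j f)
      = ∑ i ∈ Finset.univ.filter (fun i => c i ≠ P), gloc 𝔸 v φ P (c i) := by
  classical
  unfold gsum
  have hmaps : ∀ i ∈ (Finset.univ.filter (fun i => c i ≠ P) : Finset (Fin (j * e))),
      c i ∈ (zdiv h P₀ e j f).support.filter (fun Q => Q ≠ P) := by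
    intro i hi
    rw [Finset.mem_filter] at hi ⊢
    refine ⟨?_, hi.2⟩
    rw [Finsupp.mem_support_iff, hc (c i)]
    have : 0 < cnt c (c i) := by
      unfold cnt
      rw [Finset.card_pos]
      exact ⟨i, by simp⟩
    exact_mod_cast this.ne'
  rw [← Finset.sum_fiberwise_of_maps_to hmaps]
  refine Finset.sum_congr rfl fun Q hQ => ?_
  have hQP : Q ≠ P := (Finset.mem_filter.mp hQ).2
  have hfilter : ((Finset.univ.filter (fun i => c i ≠ P)).filter (fun i => c i = Q)
      : Finset (Fin (j * e))) = Finset.univ.filter (fun i => c i = Q) := by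
    ext i
    simp only [Finset.mem_filter, Finset.mem_univ, true_and, and_iff_right_iff_imp]
    intro hi
    rw [hi]
    exact hQP
  rw [hfilter, Finset.sum_congr rfl (fun i hi => by rw [(Finset.mem_filter.mp hi).2]),
    Finset.sum_const, nsmul_eq_mul, hc Q]
  congr 1

end Fermat.Agent.S17.L7
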