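import Fermat.Agent.S17.H.L7.GeomA
import Fermat.Agent.S17.H.L7.GeomB
import Fermat.Agent.S17.H.L7.GeomC

/-!
# S17/H seat L7, piece D3: geometry of the zeros of a section (aggregator)
D3a = GeomA.lean, D3b = GeomB.lean, D3c = GeomC.lean.
-/
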