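import Mathlib
import Fermat.Agent.S17.H.Gauss
import Fermat.Agent.S17.H.GaussMore
import Fermat.Agent.S17.H.L7.Geom

set_option autoImplicit false
set_option linter.unusedSectionVars false
set_option linter.unusedVariables false

/-!
# S17, package H, seat L7: assembly (Cramer forms + NST)
-/

noncomputable section

open AlgebraicCurve MvPolynomial Matrix

namespace Fermat.Agent.S17.L7

open Fermat.Agent.RR

variable {F : Type*} [Field F] [Algebra Qbar F]
variable {P₀ : Place Qbar F} {e r : ℕ} {φ : Fin (r + 1) → F}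

/-- the conclusion of seat L2 (CLOSED) for the embedding basis: a nonzero vector killing all
homogeneous relations of `φ` is proportional to the coordinates of a place. -/
def ClosedProp (φ : Fin (r + 1) → F) : Prop :=
  ∀ y : Fin (r + 1) → Qbar, y ≠ 0 →
    (∀ (k : ℕ) (G : MvPolynomial (Fin (r + 1)) Qbar), G.IsHomogeneous k → aeval φ G = 0 →
      eval y G = 0) →
    ∃ (P : Place Qbar F) (lam : Qbar), lam ≠ 0 ∧ y = lam • coord φ P

/-! ### points of the multi-projective space -/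

section points

variable {d N : ℕ}

theorem mkPoint_eta (y : ∀ i : Fac N, Fin (dims r d N i + 1) → Qbar) :
    mkPoint (r := r) (d := d) (N := N) (y (facP N)) (fun i => y (facC i)) (y (facF N)) = y := by
  funext i
  rcases i with ⟨⟩ | i | ⟨⟩ <;> rfl

theorem prod_fac (g : Fac N → ℝ) :
    ∏ i, g i = g (facP N) * ((∏ i, g (facC i)) * g (facF N)) := by
  rw [Fintype.prod_sum_type, Fintype.prod_sum_type]
  simp

theorem degPsi_facP (D k : ℕ) : degPsi r d N D k (facP N) = k := by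
  simp [degPsi, degF, degC, degP]

theorem degPsi_facC (D k : ℕ) (i : Fin N) : degPsi r d N D k (facC i) = 1 := by
  simp [degPsi, degF, degC, degP]

theorem degPsi_facF (D k : ℕ) : degPsi r d N D k (facF N) = D - 1 := by
  simp [degPsi, degF, degC, degP]

theorem degF_facP (k : ℕ) : degF r d N k (facP N) = 0 := by simp [degF]
theorem degF_facC (k : ℕ) (i : Fin N) : degF r d N k (facC i) = 0 := by simp [degF]
theorem degF_facF (k : ℕ) : degF r d N k (facF N) = k := by simp [degF]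

end points
/-! ### the auxiliary data and the dictionary values <-> sections -/

section dict

variable {j d D E : ℕ}

/-- coordinates of the evaluation points -/
def qv (φ : Fin (r + 1) → F) (Q : Fin E → Place Qbar F) : Fin E → Fin (r + 1) → Qbar :=
  fun ρ => coord φ (Q ρ)

/-- values of the basis of `V_j` at the evaluation points -/
def βv (φ : Fin (r + 1) → F) (b : Module.Basis (Fin (d + 1)) Qbar (secSpace P₀ e j))
    (Q : Fin E → Place Qbar F) : Fin E → Fin (d + 1) → Qbar :=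
  fun ρ t => sval φ j (Q ρ) (b t : F)

/-- values of the basis of `V_{N-j}` at the evaluation points -/
def βv' (φ : Fin (r + 1) → F) (b' : Module.Basis (Fin D) Qbar (secSpace P₀ e (j * e - j)))
    (Q : Fin E → Place Qbar F) : Fin E → Fin D → Qbar :=
  fun ρ s => sval φ (j * e - j) (Q ρ) (b' s : F)

/-- the section with coefficients `z` -/
def secOf {k n : ℕ} (b : Module.Basis (Fin n) Qbar (secSpace P₀ e k)) (z : Fin n → Qbar) : F :=
  ∑ t, z t • (b t : F)

theorem secOf_mem {k n : ℕ} (b : Module.Basis (Fin n) Qbar (secSpace P₀ e k))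
    (z : Fin n → Qbar) : secOf b z ∈ secSpace P₀ e k :=
  Submodule.sum_mem _ fun t _ => Submodule.smul_mem _ _ (b t).2

theorem secOf_eq_coe {k n : ℕ} (b : Module.Basis (Fin n) Qbar (secSpace P₀ e k))
    (z : Fin n → Qbar) :
    secOf b z = ((∑ t, z t • b t : secSpace P₀ e k) : F) := by
  unfold secOf
  rw [Submodule.coe_sum]
  rfl

theorem secOf_repr {k n : ℕ} (b : Module.Basis (Fin n) Qbar (secSpace P₀ e k)) {f : F}
    (hf : f ∈ secSpace P₀ e k) : secOf b (fun t => b.repr ⟨f, hf⟩ t) = f := by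
  rw [secOf_eq_coe, b.sum_repr]

theorem secOf_eq_zero_iff {k n : ℕ} (b : Module.Basis (Fin n) Qbar (secSpace P₀ e k))
    (z : Fin n → Qbar) : secOf b z = 0 ↔ z = 0 := by
  rw [secOf_eq_coe]
  constructor
  · intro h0
    have h1 : (∑ t, z t • b t : secSpace P₀ e k) = 0 := Subtype.ext h0
    have := Fintype.linearIndependent_iff.mp b.linearIndependent z h1
    exact funext this
  · rintro rfl
    simp

variable (h : IsRRField Qbar F) (hφ : IsEmbBasis P₀ e φ) (he : 2 * genusFF Qbar F + 1 ≤ e)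
variable (b : Module.Basis (Fin (d + 1)) Qbar (secSpace P₀ e j))
  (b' : Module.Basis (Fin D) Qbar (secSpace P₀ e (j * e - j)))
  (Q : Fin E → Place Qbar F)

include h hφ he

theorem l7_sub_add : j + (j * e - j) = j * e := by
  have h1 : 1 ≤ e := by omega
  have h2 : j ≤ j * e := Nat.le_mul_of_pos_right j h1
  omega

/-- (KL1) -/
theorem valF_eq (z : Fin (d + 1) → Qbar) (ρ : Fin E) :
    valF (βv φ b Q) z ρ = sval φ j (Q ρ) (secOf b z) := by
  unfold valF secOf βv
  rw [sval_sum h hφ (by omega) j (Q ρ) Finset.univ z (fun t => (b t : F)) (fun t _ => (b t).2)]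
  exact Finset.sum_congr rfl fun t _ => mul_comm _ _

/-- (KL2) -/
theorem valM_mulVec_eq (z : Fin (d + 1) → Qbar) (κ : Fin D → Qbar) (ρ : Fin E) :
    (valM (βv φ b Q) (βv' φ b' Q) z *ᵥ κ) ρ
      = sval φ (j * e) (Q ρ) (secOf b z * secOf b' κ) := by
  have h1 : sval φ (j * e) (Q ρ) (secOf b z * secOf b' κ)
      = sval φ j (Q ρ) (secOf b z) * sval φ (j * e - j) (Q ρ) (secOf b' κ) := by
    have := sval_mul h hφ (by omega) (Q ρ) (secOf_mem b z) (secOf_mem b' κ)
    rwa [l7_sub_add h hφ he] at this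
  rw [h1, ← valF_eq h hφ he b Q z ρ]
  unfold secOf
  rw [sval_sum h hφ (by omega) (j * e - j) (Q ρ) Finset.univ κ (fun s => (b' s : F))
    (fun s _ => (b' s).2), Finset.mul_sum]
  simp only [Matrix.mulVec, dotProduct, valM, βv']
  exact Finset.sum_congr rfl fun s _ => by ring

/-- (KL3) -/
theorem valW_eq (x : Fin (j * e) → Fin (r + 1) → Qbar) (μ : Fin (j * e) → Pair r) (ρ : Fin E) :
    valW (qv φ Q) x μ ρ = sval φ (j * e) (Q ρ) (prodLin φ x μ) := by
  rw [sval_prodLin h hφ (by omega)]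
  rfl

/-- (KL4) -/
theorem eq_prodLin_of_mulVec_eq (hQ : Function.Injective Q) (hE : (j * e) * e < E)
    (z : Fin (d + 1) → Qbar) (κ : Fin D → Qbar)
    (x : Fin (j * e) → Fin (r + 1) → Qbar) (μ : Fin (j * e) → Pair r)
    (hMw : valM (βv φ b Q) (βv' φ b' Q) z *ᵥ κ = valW (qv φ Q) x μ) :
    secOf b z * secOf b' κ = prodLin φ x μ := by
  have hmem1 : secOf b z * secOf b' κ ∈ secSpace P₀ e (j * e) := by
    have := gauss_secSpace_mul_mem P₀ e j (j * e - j) (secOf_mem b z) (secOf_mem b' κ)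
    rwa [l7_sub_add h hφ he] at this
  have hmem2 : prodLin φ x μ ∈ secSpace P₀ e (j * e) := prodLin_mem hφ x μ
  have hmem3 : (-1 : Qbar) • prodLin φ x μ ∈ secSpace P₀ e (j * e) :=
    Submodule.smul_mem _ _ hmem2
  have hdiff : secOf b z * secOf b' κ + (-1 : Qbar) • prodLin φ x μ = 0 := by
    refine eq_zero_of_sval_eq_zero h hφ (by omega) (j * e) (Submodule.add_mem _ hmem1 hmem3)
      Q hQ hE fun ρ => ?_
    rw [sval_add h hφ (by omega) (j * e) (Q ρ) hmem1 hmem3,
      sval_smul h hφ (by omega) (j * e) (Q ρ) (-1) hmem2,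
      ← valM_mulVec_eq h hφ he b b' Q z κ ρ, ← valW_eq h hφ he Q x μ ρ, hMw]
    ring
  rw [neg_one_smul] at hdiff
  exact add_neg_eq_zero.mp hdiff

theorem mulVec_eq_of_eq_prodLin
    (z : Fin (d + 1) → Qbar) (κ : Fin D → Qbar)
    (x : Fin (j * e) → Fin (r + 1) → Qbar) (μ : Fin (j * e) → Pair r)
    (hfk : secOf b z * secOf b' κ = prodLin φ x μ) :
    valM (βv φ b Q) (βv' φ b' Q) z *ᵥ κ = valW (qv φ Q) x μ := by
  funext ρ
  rw [valM_mulVec_eq h hφ he b b' Q z κ ρ, valW_eq h hφ he Q x μ ρ, hfk]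

/-- (KL5) -/
theorem sum_eval_eq_sval (B' : Fin D → MvPolynomial (Fin (r + 1)) Qbar)
    (hB'hom : ∀ s, (B' s).IsHomogeneous (j * e - j))
    (hB' : ∀ s, aeval φ (B' s) = (b' s : F)) (κ : Fin D → Qbar) (P : Place Qbar F) :
    ∑ s, κ s * eval (coord φ P) (B' s) = sval φ (j * e - j) P (secOf b' κ) := by
  unfold secOf
  rw [sval_sum h hφ (by omega) (j * e - j) P Finset.univ κ (fun s => (b' s : F))
    (fun s _ => (b' s).2)]
  refine Finset.sum_congr rfl fun s _ => ?_
  congr 1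
  unfold sval
  rw [← hB' s, val_polyRep h hφ P (hB'hom s)]

end dict


/-! ### no common zero -/

section nozero

variable {j d D E : ℕ}
variable (h : IsRRField Qbar F) (hφ : IsEmbBasis P₀ e φ) (he : 2 * genusFF Qbar F + 1 ≤ e)
variable (b : Module.Basis (Fin (d + 1)) Qbar (secSpace P₀ e j))
  (b' : Module.Basis (Fin D) Qbar (secSpace P₀ e (j * e - j)))
  (B' : Fin D → MvPolynomial (Fin (r + 1)) Qbar)
  (hB'hom : ∀ s, (B' s).IsHomogeneous (j * e - j))
  (hB' : ∀ s, aeval φ (B' s) = (b' s : F))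
  (Q : Fin E → Place Qbar F) (hQ : Function.Injective Q) (hE : (j * e) * e < E)

theorem eval_smul_of_isHomogeneous {k : ℕ} {S : MvPolynomial (Fin (r + 1)) Qbar}
    (hS : S.IsHomogeneous k) (lam : Qbar) (x : Fin (r + 1) → Qbar) :
    eval (lam • x) S = lam ^ k * eval x S := by
  have := gauss_aeval_smul (F := Qbar) hS lam x
  have h2 : (lam • x) = fun a => lam * x a := rfl
  rw [h2]
  simpa [MvPolynomial.aeval_eq_eval] using this

include h hφ he hB'hom hB' hQ hE in
/-- the Cramer forms have no common zero on the incidence set -/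
theorem noZero (hclosed : ClosedProp φ)
    (yP : Fin (r + 1) → Qbar) (yC : Fin (j * e) → Fin (r + 1) → Qbar)
    (yF : Fin (d + 1) → Qbar)
    (hyP : yP ≠ 0) (hyC : ∀ i, yC i ≠ 0) (hyF : yF ≠ 0)
    (hP : ∀ (k : ℕ) (G : MvPolynomial (Fin (r + 1)) Qbar), G.IsHomogeneous k →
      aeval φ G = 0 → eval yP G = 0)
    (hC : ∀ i (k : ℕ) (G : MvPolynomial (Fin (r + 1)) Qbar), G.IsHomogeneous k →
      aeval φ G = 0 → eval (yC i) G = 0)
    (hcram : ∀ (I : Fin D → Fin E) (μ : Fin (j * e) → Pair r) (ρ : Fin E),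
      (rowsOf (valM (βv φ b Q) (βv' φ b' Q) yF) I).det * valW (qv φ Q) yC μ ρ
        = (valM (βv φ b Q) (βv' φ b' Q) yF *ᵥ
            cram (valM (βv φ b Q) (βv' φ b' Q) yF) I (valW (qv φ Q) yC μ)) ρ) :
    ∃ (I : Fin D → Fin E) (μ : Fin (j * e) → Pair r),
      ∑ s, cram (valM (βv φ b Q) (βv' φ b' Q) yF) I (valW (qv φ Q) yC μ) s
        * eval yP (B' s) ≠ 0 := by
  obtain ⟨P, lamP, hlamP, rfl⟩ := hclosed yP hyP hP
  choose c lam hlam hc' using fun i => hclosed (yC i) (hyC i) (hC i)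
  have hyC' : yC = fun i => lam i • coord φ (c i) := funext hc'
  have hf : secOf b yF ∈ secSpace P₀ e j := secOf_mem b yF
  have hf0 : secOf b yF ≠ 0 := fun h0 => hyF ((secOf_eq_zero_iff b yF).mp h0)
  have hinj : ∀ κ : Fin D → Qbar,
      valM (βv φ b Q) (βv' φ b' Q) yF *ᵥ κ = 0 → κ = 0 := by
    intro κ hκ
    have hmem : secOf b yF * secOf b' κ ∈ secSpace P₀ e (j * e) := by
      have := gauss_secSpace_mul_mem P₀ e j (j * e - j) hf (secOf_mem b' κ)
      rwa [l7_sub_add h hφ he] at this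
    have h0 : secOf b yF * secOf b' κ = 0 :=
      eq_zero_of_sval_eq_zero h hφ (by omega) (j * e) hmem Q hQ hE fun ρ => by
        rw [← valM_mulVec_eq h hφ he b b' Q yF κ ρ, hκ]
        rfl
    exact (secOf_eq_zero_iff b' κ).mp ((mul_eq_zero.mp h0).resolve_left hf0)
  obtain ⟨I₀, hI₀⟩ := exists_det_rowsOf_ne_zero _ hinj
  have hcr : ∀ μ : Fin (j * e) → Pair r,
      (rowsOf (valM (βv φ b Q) (βv' φ b' Q) yF) I₀).det • valW (qv φ Q) yC μ
        = valM (βv φ b Q) (βv' φ b' Q) yF *ᵥ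
            cram (valM (βv φ b Q) (βv' φ b' Q) yF) I₀ (valW (qv φ Q) yC μ) := fun μ =>
    funext fun ρ => by
      rw [Pi.smul_apply, smul_eq_mul]
      exact hcram I₀ μ ρ
  have hq : ∀ μ : Fin (j * e) → Pair r, ∃ k, k ∈ secSpace P₀ e (j * e - j) ∧
      secOf b yF * k = prodLin φ (fun i => lam i • coord φ (c i)) μ := by
    intro μ
    obtain ⟨κ, hκ, -⟩ := exists_mulVec_eq_of_cram _ I₀ hI₀ (valW (qv φ Q) yC μ) (hcr μ)
    refine ⟨secOf b' κ, secOf_mem b' κ, ?_⟩
    have := eq_prodLin_of_mulVec_eq h hφ he b b' Q hQ hE yF κ yC μ hκ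
    rwa [hyC'] at this
  have hcnt := cnt_of_forall_quot h hφ he j hf hf0 c lam hlam hq
  obtain ⟨μ₀, hμ₀⟩ := exists_mu_sval_ne_zero h hφ he j hf hf0 c lam hlam hcnt P
  obtain ⟨κ, hκ, hcramκ⟩ := exists_mulVec_eq_of_cram _ I₀ hI₀ (valW (qv φ Q) yC μ₀) (hcr μ₀)
  have hfk : secOf b yF * secOf b' κ = prodLin φ (fun i => lam i • coord φ (c i)) μ₀ := by
    have := eq_prodLin_of_mulVec_eq h hφ he b b' Q hQ hE yF κ yC μ₀ hκ
    rwa [hyC'] at this
  have hne := hμ₀ (secOf b' κ) (secOf_mem b' κ) hfk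
  refine ⟨I₀, μ₀, ?_⟩
  rw [hcramκ]
  have h1 : ∑ s, ((rowsOf (valM (βv φ b Q) (βv' φ b' Q) yF) I₀).det • κ) s
        * eval (lamP • coord φ P) (B' s)
      = (rowsOf (valM (βv φ b Q) (βv' φ b' Q) yF) I₀).det * lamP ^ (j * e - j)
        * ∑ s, κ s * eval (coord φ P) (B' s) := by
    rw [Finset.mul_sum]
    refine Finset.sum_congr rfl fun s _ => ?_
    rw [eval_smul_of_isHomogeneous (hB'hom s), Pi.smul_apply, smul_eq_mul]
    ring
  rw [h1, sum_eval_eq_sval h hφ he b' B' hB'hom hB' κ P]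
  exact mul_ne_zero (mul_ne_zero hI₀ (pow_ne_zero _ hlamP)) hne

end nozero


/-! ### the Nullstellensatz bound for the quotient -/

section bound

variable {j d : ℕ}

/-- the equations of the incidence set -/
def incEqs (φ : Fin (r + 1) → F) {N D E : ℕ} (q : Fin E → Fin (r + 1) → Qbar)
    (β : Fin E → Fin (d + 1) → Qbar) (β' : Fin E → Fin D → Qbar) :
    Set (PolyRing r d N) :=
  {G | (∃ (k : ℕ) (S : MvPolynomial (Fin (r + 1)) Qbar), S.IsHomogeneous k ∧ aeval φ S = 0 ∧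
          G = inFactor (n := dims r d N) (facP N) S) ∨
       (∃ (i : Fin N) (k : ℕ) (S : MvPolynomial (Fin (r + 1)) Qbar), S.IsHomogeneous k ∧
          aeval φ S = 0 ∧ G = inFactor (n := dims r d N) (facC i) S) ∨
       (∃ (I : Fin D → Fin E) (μ : Fin N → Pair r) (ρ : Fin E), G = cramEq q β β' I μ ρ)}

theorem exists_bound_quot (𝔸 : AbsSys) (hclosed : ClosedProp φ) (h : IsRRField Qbar F)
    (hφ : IsEmbBasis P₀ e φ) (he : 3 * genusFF Qbar F + 1 ≤ e)
    (b : Module.Basis (Fin (d + 1)) Qbar (secSpace P₀ e j)) :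
    ∃ γ : MConst 𝔸, ∀ (v : 𝔸.ι) (f : F), f ∈ secSpace P₀ e j → f ≠ 0 →
      ∀ (c : Fin (j * e) → Place Qbar F), (∀ Q, zdiv h P₀ e j f Q = (cnt c Q : ℤ)) →
      ∀ P : Place Qbar F, ∃ (μ : Fin (j * e) → Pair r) (k : F),
        k ∈ secSpace P₀ e (j * e - j) ∧
        f * k = prodLin φ (fun i => coord φ (c i)) μ ∧
        Real.exp (-(γ v)) * (vnorm 𝔸 v (coord φ P) ^ (j * e - j)
            * ∏ i, vnorm 𝔸 v (coord φ (c i)))
          ≤ cnorm 𝔸 v b f * 𝔸.abv v (sval φ (j * e - j) P k) := by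
  classical
  have he2 : 2 * genusFF Qbar F + 1 ≤ e := by omega
  -- auxiliary data
  have hfd : FiniteDimensional Qbar (secSpace P₀ e (j * e - j)) := by
    unfold secSpace
    exact finite_riemannRochSpace h _
  set D := Module.finrank Qbar (secSpace P₀ e (j * e - j)) with hDdef
  let b' : Module.Basis (Fin D) Qbar (secSpace P₀ e (j * e - j)) := Module.finBasis Qbar _
  have hD : 1 ≤ D := by
    have h1 : (1 : F) ∈ secSpace P₀ e (j * e - j) := by
      have := aeval_mem_secSpace hφ (k := j * e - j)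
        (S := (MvPolynomial.X 0 : MvPolynomial (Fin (r + 1)) Qbar) ^ (j * e - j))
        (by simpa using (MvPolynomial.isHomogeneous_X Qbar (0 : Fin (r + 1))).pow (j * e - j))
      simpa [hφ.zero_eq_one] using this
    have hne : Nontrivial (secSpace P₀ e (j * e - j)) :=
      ⟨⟨⟨1, h1⟩, 0, fun h0 => one_ne_zero (congrArg Subtype.val h0)⟩⟩
    exact Module.finrank_pos
  choose B' hB'hom hB' using fun s : Fin D =>
    exists_polyRep h hφ (by omega) (j * e - j) (b' s).2
  have hinf : Infinite (Place Qbar F) := infinite_place h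
  set E := (j * e) * e + 1 with hEdef
  let Q : Fin E → Place Qbar F := fun ρ => Infinite.natEmbedding (Place Qbar F) ρ.1
  have hQ : Function.Injective Q := fun ρ σ hρσ =>
    Fin.ext ((Infinite.natEmbedding (Place Qbar F)).injective hρσ)
  have hE : (j * e) * e < E := by omega
  -- the forms
  set q := qv φ Q with hq
  set β := βv φ b Q with hβ
  set β' := βv' φ b' Q with hβ'
  obtain ⟨γ₁, hγ₁⟩ := nst 𝔸 (degPsi r d (j * e) D (j * e - j))
    (fun Iμ : (Fin D → Fin E) × (Fin (j * e) → Pair r) => psi q β β' B' Iμ.1 Iμ.2)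
    (fun Iμ => isMultiHom_psi q β β' B' hB'hom Iμ.1 Iμ.2)
    (incEqs φ (N := j * e) q β β')
    (by
      rintro G (⟨k, S, hS, -, rfl⟩ | ⟨i, k, S, hS, -, rfl⟩ | ⟨I, μ, ρ, rfl⟩)
      · exact ⟨_, isMultiHom_inFactor (n := dims r d (j * e)) (facP (j * e)) hS⟩
      · exact ⟨_, isMultiHom_inFactor (n := dims r d (j * e)) (facC i) hS⟩
      · exact ⟨_, isMultiHom_cramEq hD q β β' I μ ρ⟩)
    (by
      intro y hy hY
      rw [← mkPoint_eta y] at hY ⊢
      obtain ⟨I, μ, hne⟩ := noZero h hφ he2 b b' B' hB'hom hB' Q hQ hE hclosed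
        (y (facP (j * e))) (fun i => y (facC i)) (y (facF (j * e)))
        (hy (facP (j * e))) (fun i => hy (facC i)) (hy (facF (j * e)))
        (fun k G hG hG0 => by
          have := hY _ (Or.inl ⟨k, G, hG, hG0, rfl⟩)
          rwa [eval_inFactor] at this)
        (fun i k G hG hG0 => by
          have := hY _ (Or.inr (Or.inl ⟨i, k, G, hG, hG0, rfl⟩))
          rwa [eval_inFactor] at this)
        (fun I μ ρ => by
          have := hY _ (Or.inr (Or.inr ⟨I, μ, ρ, rfl⟩))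
          have h2 := eval_cramEq (r := r) (d := d) (y (facP (j * e))) (fun i => y (facC i))
            (y (facF (j * e))) q β β' I μ ρ
          exact sub_eq_zero.mp (h2.symm.trans this))
      refine ⟨(I, μ), ?_⟩
      have h2 := eval_psi (r := r) (d := d) (y (facP (j * e))) (fun i => y (facC i))
        (y (facF (j * e))) q β β' B' I μ
      rw [h2]
      exact hne)
  -- upper bound for the minors
  let γ₂ : MConst 𝔸 := MConst.finsetSum Finset.univ fun I : Fin D → Fin E =>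
    polyConst 𝔸 (rowsOf (genM r (j * e) β β') I).det
  refine ⟨γ₁ + γ₂, fun v f hf hf0 c hc P => ?_⟩
  -- the actual point
  set z : Fin (d + 1) → Qbar := fun t => b.repr ⟨f, hf⟩ t with hz
  have hfz : secOf b z = f := secOf_repr b hf
  have hz0 : z ≠ 0 := fun h0 => hf0 (by
    rw [← hfz, h0]
    exact (secOf_eq_zero_iff b 0).mpr rfl)
  have hnz : 0 < vnorm 𝔸 v z := vnorm_pos 𝔸 v hz0
  -- quotients for all μ
  have hquot : ∀ μ : Fin (j * e) → Pair r, ∃ κ : Fin D → Qbar,
      f * secOf b' κ = prodLin φ (fun i => coord φ (c i)) μ := by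
    intro μ
    obtain ⟨k, hk, hfk⟩ := exists_quot h hφ he2 j hf hf0 c hc μ
    refine ⟨fun s => b'.repr ⟨k, hk⟩ s, ?_⟩
    rw [secOf_repr b' hk]
    exact hfk
  choose κ hκ using hquot
  have hMw : ∀ μ, valM β β' z *ᵥ κ μ = valW q (fun i => coord φ (c i)) μ := fun μ =>
    mulVec_eq_of_eq_prodLin h hφ he2 b b' Q z (κ μ) _ μ (by rw [hfz]; exact hκ μ)
  -- the point lies on the incidence set
  have hy0 : ∀ i, mkPoint (r := r) (d := d) (N := j * e) (coord φ P)
      (fun i => coord φ (c i)) z i ≠ 0 := by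
    rintro (⟨⟩ | i | ⟨⟩)
    · exact hφ.coord_ne_zero P
    · exact hφ.coord_ne_zero (c i)
    · exact hz0
  have hY : ∀ G ∈ incEqs φ (N := j * e) q β β',
      eval (mpPoint (dims r d (j * e)) (mkPoint (r := r) (d := d) (N := j * e) (coord φ P)
        (fun i => coord φ (c i)) z)) G = 0 := by
    rintro G (⟨k, S, hS, hS0, rfl⟩ | ⟨i, k, S, hS, hS0, rfl⟩ | ⟨I, μ, ρ, rfl⟩)
    · rw [eval_inFactor]
      exact eval_coord_eq_zero h hφ P hS hS0
    · rw [eval_inFactor]
      exact eval_coord_eq_zero h hφ (c i) hS hS0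
    · rw [eval_cramEq, ← hMw μ, sub_eq_zero]
      have := congrFun (det_smul_eq_mulVec_cram (valM β β' z) I (κ μ)) ρ
      simpa [Pi.smul_apply, smul_eq_mul] using this
  obtain ⟨⟨I, μ⟩, hIμ⟩ := hγ₁ v _ hy0 hY
  -- value of Ψ
  have hΨ : eval (mpPoint (dims r d (j * e)) (mkPoint (r := r) (d := d) (N := j * e)
        (coord φ P) (fun i => coord φ (c i)) z)) (psi q β β' B' I μ)
      = (rowsOf (valM β β' z) I).det * sval φ (j * e - j) P (secOf b' (κ μ)) := by
    rw [eval_psi, ← hMw μ, cram_mulVec,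
      ← sum_eval_eq_sval h hφ he2 b' B' hB'hom hB' (κ μ) P, Finset.mul_sum]
    refine Finset.sum_congr rfl fun s _ => ?_
    rw [Pi.smul_apply, smul_eq_mul]
    ring
  -- upper bound for the minor
  have hdet : 𝔸.abv v ((rowsOf (valM β β' z) I).det)
      ≤ Real.exp (γ₂ v) * vnorm 𝔸 v z ^ D := by
    have h1 := abv_eval_mpPoint_le 𝔸 v (isMultiHom_det_genM (r := r) (N := j * e) β β' I)
      (mkPoint (r := r) (d := d) (N := j * e) (coord φ P) (fun i => coord φ (c i)) z)
    rw [eval_det_rowsOf_genM] at h1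
    have h2 : ∏ i, vnorm 𝔸 v (mkPoint (r := r) (d := d) (N := j * e) (coord φ P)
        (fun i => coord φ (c i)) z i) ^ ((D • degF r d (j * e) 1) i) = vnorm 𝔸 v z ^ D := by
      rw [prod_fac]
      simp only [Pi.smul_apply, degF_facP, degF_facC, degF_facF, smul_eq_mul, mul_zero,
        pow_zero, Finset.prod_const_one, one_mul, mul_one]
      rfl
    rw [h2] at h1
    refine h1.trans (mul_le_mul_of_nonneg_right ?_ (pow_nonneg (vnorm_nonneg 𝔸 v z) D))
    rw [Real.exp_le_exp]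
    show (polyConst 𝔸 (rowsOf (genM r (j * e) β β') I).det) v ≤ γ₂ v
    rw [MConst.finsetSum_apply]
    exact Finset.single_le_sum (f := fun I : Fin D → Fin E =>
      (polyConst 𝔸 (rowsOf (genM r (j * e) β β') I).det) v)
      (fun I _ => (polyConst 𝔸 _).nonneg v) (Finset.mem_univ I)
  -- product of norms
  have hprod : ∏ i, vnorm 𝔸 v (mkPoint (r := r) (d := d) (N := j * e) (coord φ P)
        (fun i => coord φ (c i)) z i) ^ (degPsi r d (j * e) D (j * e - j) i)
      = vnorm 𝔸 v (coord φ P) ^ (j * e - j)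
        * ((∏ i, vnorm 𝔸 v (coord φ (c i))) * vnorm 𝔸 v z ^ (D - 1)) := by
    rw [prod_fac]
    simp only [degPsi_facP, degPsi_facC, degPsi_facF, pow_one]
    rfl
  rw [hprod, hΨ, map_mul] at hIμ
  refine ⟨μ, secOf b' (κ μ), secOf_mem b' (κ μ), hκ μ, ?_⟩
  rw [gauss_cnorm_of_mem 𝔸 v b hf]
  set nP := vnorm 𝔸 v (coord φ P) ^ (j * e - j) with hnP
  set nC := ∏ i, vnorm 𝔸 v (coord φ (c i)) with hnC
  set sv := 𝔸.abv v (sval φ (j * e - j) P (secOf b' (κ μ))) with hsv
  have hsv0 : 0 ≤ sv := (𝔸.abv v).nonneg _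
  have hzD : vnorm 𝔸 v z ^ D = vnorm 𝔸 v z ^ (D - 1) * vnorm 𝔸 v z := by
    rw [← pow_succ]
    congr 1
    omega
  have hpos : 0 < vnorm 𝔸 v z ^ (D - 1) := pow_pos hnz _
  -- exp(-γ₁) nP nC nz^(D-1) ≤ exp(γ₂) nz^(D-1) nz sv
  have h3 : Real.exp (-(γ₁ v)) * (nP * (nC * vnorm 𝔸 v z ^ (D - 1)))
      ≤ Real.exp (γ₂ v) * (vnorm 𝔸 v z ^ (D - 1) * vnorm 𝔸 v z) * sv := by
    refine hIμ.trans ?_
    rw [← hzD]
    exact mul_le_mul_of_nonneg_right hdet hsv0
  have h4 : Real.exp (-(γ₁ v)) * (nP * nC) ≤ Real.exp (γ₂ v) * (vnorm 𝔸 v z * sv) := by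
    have h5 : (Real.exp (-(γ₁ v)) * (nP * nC)) * vnorm 𝔸 v z ^ (D - 1)
        ≤ (Real.exp (γ₂ v) * (vnorm 𝔸 v z * sv)) * vnorm 𝔸 v z ^ (D - 1) := by
      calc (Real.exp (-(γ₁ v)) * (nP * nC)) * vnorm 𝔸 v z ^ (D - 1)
          = Real.exp (-(γ₁ v)) * (nP * (nC * vnorm 𝔸 v z ^ (D - 1))) := by ring
        _ ≤ Real.exp (γ₂ v) * (vnorm 𝔸 v z ^ (D - 1) * vnorm 𝔸 v z) * sv := h3
        _ = (Real.exp (γ₂ v) * (vnorm 𝔸 v z * sv)) * vnorm 𝔸 v z ^ (D - 1) := by ring
    exact le_of_mul_le_mul_right h5 hpos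
  have h6 : Real.exp (-((γ₁ + γ₂) v)) * (nP * nC)
      = Real.exp (-(γ₂ v)) * (Real.exp (-(γ₁ v)) * (nP * nC)) := by
    rw [MConst.add_apply, neg_add, Real.exp_add]
    ring
  rw [h6]
  calc Real.exp (-(γ₂ v)) * (Real.exp (-(γ₁ v)) * (nP * nC))
      ≤ Real.exp (-(γ₂ v)) * (Real.exp (γ₂ v) * (vnorm 𝔸 v z * sv)) :=
        mul_le_mul_of_nonneg_left h4 (Real.exp_pos _).le
    _ = vnorm 𝔸 v z * sv := by
        rw [← mul_assoc, ← Real.exp_add, neg_add_cancel, Real.exp_zero, one_mul]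

end bound


/-! ### the final inequality -/

section final

theorem l7_real {a nP nz θ X Y lead sv g : ℝ} {N j m : ℕ} (hj : j ≤ N) (hm : m ≤ N)
    (ha : a = Real.exp (-g)) (hnP : 0 < nP) (hnz : 0 ≤ nz) (hX : 0 < X) (hlead : 0 ≤ lead)
    (hd : a * (nP ^ (N - j) * (nP ^ m * X)) ≤ nz * sv)
    (hf : lead * sv ≤ (θ * nP ^ 2) ^ m * (Y * nP ^ (N - m) * X)) :
    lead / nP ^ j ≤ Real.exp g * (nz * θ ^ m * Y) := by
  have hW : 0 < a * (nP ^ (N - j) * (nP ^ m * X)) := by rw [ha]; positivity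
  rw [div_le_iff₀ (pow_pos hnP j)]
  have h1 : Real.exp g * a = 1 := by
    rw [ha, ← Real.exp_add, add_neg_cancel, Real.exp_zero]
  have h2 : nP ^ j * nP ^ (N - j) = nP ^ N := by
    rw [← pow_add]; congr 1; omega
  have h3 : nP ^ (N - m) * nP ^ m = nP ^ N := by
    rw [← pow_add]; congr 1; omega
  have key : lead * (a * (nP ^ (N - j) * (nP ^ m * X)))
      ≤ (Real.exp g * (nz * θ ^ m * Y) * nP ^ j) * (a * (nP ^ (N - j) * (nP ^ m * X))) := by
    calc lead * (a * (nP ^ (N - j) * (nP ^ m * X))) ≤ lead * (nz * sv) :=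
          mul_le_mul_of_nonneg_left hd hlead
      _ = nz * (lead * sv) := by ring
      _ ≤ nz * ((θ * nP ^ 2) ^ m * (Y * nP ^ (N - m) * X)) :=
          mul_le_mul_of_nonneg_left hf hnz
      _ = nz * θ ^ m * Y * X * (nP ^ m * (nP ^ (N - m) * nP ^ m)) := by
          rw [mul_pow, ← pow_mul]
          have : nP ^ (2 * m) = nP ^ m * nP ^ m := by rw [← pow_add]; congr 1; omega
          rw [this]; ring
      _ = nz * θ ^ m * Y * X * (nP ^ m * nP ^ N) := by rw [h3]
      _ = (Real.exp g * a) * (nz * θ ^ m * Y * X * (nP ^ m * (nP ^ j * nP ^ (N - j)))) := by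
          rw [h1, h2, one_mul]
      _ = (Real.exp g * (nz * θ ^ m * Y) * nP ^ j) * (a * (nP ^ (N - j) * (nP ^ m * X))) := by
          ring
  exact le_of_mul_le_mul_right key hW

variable {j d : ℕ}

/-- **L7**, modulo the closedness of the curve (seat L2). -/
theorem localDecompLe_of_closed (𝔸 : AbsSys) (hclosed : ClosedProp φ) (h : IsRRField Qbar F)
    (hφ : IsEmbBasis P₀ e φ) (he : 3 * genusFF Qbar F + 1 ≤ e)
    (b : Module.Basis (Fin (d + 1)) Qbar (secSpace P₀ e j)) :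
    LocalDecompLe 𝔸 h P₀ e φ j b := by
  classical
  have he2 : 2 * genusFF Qbar F + 1 ≤ e := by omega
  have he1 : 2 * genusFF Qbar F ≤ e := by omega
  obtain ⟨γ, hγ⟩ := exists_bound_quot 𝔸 hclosed h hφ he b
  refine ⟨γ, fun v f hf hf0 P π hπ m hm => ?_⟩
  obtain ⟨c, hc⟩ := exists_zeros h j hf hf0
  obtain ⟨μ, k, hk, hfk, hbound⟩ := hγ v f hf hf0 c hc P
  have hlead := lead_identity h hφ he2 j hf hf0 c hc P hπ m hm μ hk hfk
  -- notation
  set T := (Finset.univ.filter fun i => c i = P : Finset (Fin (j * e))) with hT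
  set T' := (Finset.univ.filter fun i => c i ≠ P : Finset (Fin (j * e))) with hT'
  have hcardT : T.card = m := by
    have h1 := hc P
    rw [← hm] at h1
    have h2 : cnt c P = T.card := by
      unfold cnt
      congr 1
    rw [h2] at h1
    exact_mod_cast h1.symm
  have hcardT' : T'.card = j * e - m := by
    have h1 : T.card + T'.card = (Finset.univ : Finset (Fin (j * e))).card := by
      rw [hT, hT']
      exact Finset.card_filter_add_card_filter_not (s := Finset.univ) (fun i => c i = P)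
    rw [Finset.card_univ, Fintype.card_fin, hcardT] at h1
    omega
  have hmN : m ≤ j * e := by
    have h1 : T.card ≤ (Finset.univ : Finset (Fin (j * e))).card := Finset.card_le_univ T
    rw [Finset.card_univ, Fintype.card_fin, hcardT] at h1
    exact h1
  have hjN : j ≤ j * e := Nat.le_mul_of_pos_right j (by omega)
  set nP := vnorm 𝔸 v (coord φ P) with hnP
  have hnPpos : 0 < nP := hφ.vnorm_coord_pos 𝔸 v P
  have hθpos : 0 < theta 𝔸 v φ P π := hφ.theta_pos 𝔸 v h he2 P hπ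
  -- bound for the factors at P
  have hA : 𝔸.abv v (∏ i ∈ T, val P (linForm φ (coord φ P) (μ i) / (φ (pivot φ P) * π)))
      ≤ (theta 𝔸 v φ P π * nP ^ 2) ^ m := by
    rw [map_prod, ← hcardT, ← Finset.prod_const]
    refine Finset.prod_le_prod (fun i _ => (𝔸.abv v).nonneg _) fun i _ => ?_
    have h1 : theta 𝔸 v φ P π * nP ^ 2
        = Finset.univ.sup' Finset.univ_nonempty fun p : Fin (r + 1) × Fin (r + 1) =>
          𝔸.abv v (val P ((algebraMap Qbar F (coord φ P p.2) * φ p.1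
            - algebraMap Qbar F (coord φ P p.1) * φ p.2) / (φ (pivot φ P) * π))) := by
      unfold theta
      rw [div_mul_cancel₀ _ (pow_pos hnPpos 2).ne']
    rw [h1]
    exact Finset.le_sup' (fun p : Fin (r + 1) × Fin (r + 1) =>
      𝔸.abv v (val P ((algebraMap Qbar F (coord φ P p.2) * φ p.1
        - algebraMap Qbar F (coord φ P p.1) * φ p.2) / (φ (pivot φ P) * π))))
      (Finset.mem_univ (μ i))
  -- bound for the other factors
  have hchordpos : ∀ i ∈ T', 0 < chord 𝔸 v φ P (c i) := fun i hi =>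
    hφ.chord_pos 𝔸 v h he2 (fun hPc => (Finset.mem_filter.mp hi).2 hPc.symm)
  have hB : 𝔸.abv v (∏ i ∈ T', sval φ 1 P (linForm φ (coord φ (c i)) (μ i)))
      ≤ (∏ i ∈ T', chord 𝔸 v φ P (c i)) * nP ^ (j * e - m)
        * ∏ i ∈ T', vnorm 𝔸 v (coord φ (c i)) := by
    rw [map_prod]
    have h1 : ∀ i ∈ T', 𝔸.abv v (sval φ 1 P (linForm φ (coord φ (c i)) (μ i)))
        ≤ chord 𝔸 v φ P (c i) * nP * vnorm 𝔸 v (coord φ (c i)) := by
      intro i _
      rw [sval_linForm h hφ P]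
      have h2 := abv_minor_le_wnorm 𝔸 v (coord φ P) (coord φ (c i)) (μ i).1 (μ i).2
      have h3 : coord φ (c i) (μ i).2 * coord φ P (μ i).1
          - coord φ (c i) (μ i).1 * coord φ P (μ i).2
          = coord φ P (μ i).1 * coord φ (c i) (μ i).2
            - coord φ P (μ i).2 * coord φ (c i) (μ i).1 := by ring
      rw [h3]
      refine h2.trans (le_of_eq ?_)
      unfold chord
      rw [mul_assoc, div_mul_cancel₀ _
        (mul_pos hnPpos (hφ.vnorm_coord_pos 𝔸 v (c i))).ne']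
    refine (Finset.prod_le_prod (fun i _ => (𝔸.abv v).nonneg _) h1).trans (le_of_eq ?_)
    rw [Finset.prod_mul_distrib, Finset.prod_mul_distrib, Finset.prod_const, hcardT']
  -- split the product of the norms of the zeros
  have hsplit : ∏ i, vnorm 𝔸 v (coord φ (c i))
      = nP ^ m * ∏ i ∈ T', vnorm 𝔸 v (coord φ (c i)) := by
    have h1 := Finset.prod_filter_mul_prod_filter_not (Finset.univ : Finset (Fin (j * e)))
      (fun i => c i = P) (fun i => vnorm 𝔸 v (coord φ (c i)))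
    rw [← h1]
    congr 1
    rw [← hcardT, ← Finset.prod_const]
    refine Finset.prod_congr rfl fun i hi => ?_
    rw [(Finset.mem_filter.mp hi).2]
  rw [hsplit] at hbound
  -- the product identity in absolute values
  have hlead' : 𝔸.abv v (val P (f / (φ (pivot φ P) ^ j * π ^ m)))
        * 𝔸.abv v (sval φ (j * e - j) P k)
      ≤ (theta 𝔸 v φ P π * nP ^ 2) ^ m
        * ((∏ i ∈ T', chord 𝔸 v φ P (c i)) * nP ^ (j * e - m)
          * ∏ i ∈ T', vnorm 𝔸 v (coord φ (c i))) := by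
    rw [← map_mul, hlead, map_mul]
    exact mul_le_mul hA hB ((𝔸.abv v).nonneg _) (pow_nonneg (mul_nonneg hθpos.le
      (pow_nonneg hnPpos.le 2)) m)
  have hXpos : 0 < ∏ i ∈ T', vnorm 𝔸 v (coord φ (c i)) :=
    Finset.prod_pos fun i _ => hφ.vnorm_coord_pos 𝔸 v (c i)
  have hYpos : 0 < ∏ i ∈ T', chord 𝔸 v φ P (c i) := Finset.prod_pos hchordpos
  have hcn : 0 < cnorm 𝔸 v b f := gauss_cnorm_pos 𝔸 v b hf hf0
  have hfinal := l7_real (g := γ v) hjN hmN rfl hnPpos hcn.le hXpos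
    ((𝔸.abv v).nonneg (val P (f / (φ (pivot φ P) ^ j * π ^ m)))) hbound hlead'
  -- logarithms
  have hsec : secSize 𝔸 v φ j P π m f
      = 𝔸.abv v (val P (f / (φ (pivot φ P) ^ j * π ^ m))) / nP ^ j := rfl
  have hsecpos : 0 < secSize 𝔸 v φ j P π m f := hφ.secSize_pos h he1 𝔸 v j P hπ hf0 m hm
  rw [← hsec] at hfinal
  have hlog := Real.log_le_log hsecpos hfinal
  rw [Real.log_mul (Real.exp_pos _).ne' (mul_pos (mul_pos hcn (pow_pos hθpos m)) hYpos).ne',
    Real.log_exp, Real.log_mul (mul_pos hcn (pow_pos hθpos m)).ne' hYpos.ne',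
    Real.log_mul hcn.ne' (pow_pos hθpos m).ne', Real.log_pow,
    Real.log_prod (fun i hi => (hchordpos i hi).ne')] at hlog
  rw [gsum_eq_sum h 𝔸 v j c hc P]
  have hg : ∑ i ∈ T', gloc 𝔸 v φ P (c i) = -∑ i ∈ T', Real.log (chord 𝔸 v φ P (c i)) := by
    rw [← Finset.sum_neg_distrib]
    rfl
  rw [hg]
  linarith

end final

end Fermat.Agent.S17.L7
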