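import Mathlib
import Fermat.Agent.S17.H.WF1
import Fermat.Agent.S17.H.L7.Main

set_option autoImplicit false
set_option linter.unusedSectionVars false
set_option linter.unusedVariables false

/-!
# S17, package H, seat L7: from L2 (`WF1.ClosedImage`) to `ClosedProp`, and L7 from L2
-/

noncomputable section

open AlgebraicCurve MvPolynomial

namespace Fermat.Agent.S17.L7

open Fermat.Agent.RR

variable {F : Type*} [Field F] [Algebra Qbar F]
variable {P₀ : Place Qbar F} {e r : ℕ} {φ : Fin (r + 1) → F}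

/-- L2 in the form of `WF1.ClosedImage` gives `ClosedProp`. -/
theorem closedProp_of_closedImage (h : IsRRField Qbar F) (hφ : IsEmbBasis P₀ e φ)
    (hcl : WF1.ClosedImage φ) : ClosedProp φ := by
  intro y hy hrel
  obtain ⟨P, i₀, c, hi₀, hord, hval⟩ := hcl y hy fun G ⟨k, hG⟩ hG0 => hrel k G hG hG0
  have hp0 : φ (pivot φ P) ≠ 0 := hφ.ne_zero _
  -- the pivot and `i₀` have the same order
  have h1 : P.ord (φ (pivot φ P)) = P.ord (φ i₀) := by
    have h2 := pivot_le φ P i₀
    have h3 := hord (pivot φ P)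
    rw [WF1.ord_div' P hp0 hi₀] at h3
    omega
  have hu : P.ord (φ (pivot φ P) / φ i₀) = 0 := by
    rw [WF1.ord_div' P hp0 hi₀, h1, sub_self]
  have hune : φ (pivot φ P) / φ i₀ ≠ 0 := div_ne_zero hp0 hi₀
  have hvu : val P (φ (pivot φ P) / φ i₀) ≠ 0 := Pts.ev_ne_zero_of_ord_eq_zero h P hune hu
  have hc : c ≠ 0 := by
    rintro rfl
    exact hy (funext fun i => by rw [hval i, zero_mul]; rfl)
  refine ⟨P, c * val P (φ (pivot φ P) / φ i₀), mul_ne_zero hc hvu, funext fun i => ?_⟩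
  rw [hval i, Pi.smul_apply, smul_eq_mul]
  have h4 : φ i / φ i₀ = (φ i / φ (pivot φ P)) * (φ (pivot φ P) / φ i₀) := by
    field_simp
  have h5 : val P (φ i / φ i₀) = coord φ P i * val P (φ (pivot φ P) / φ i₀) := by
    rw [h4]
    exact Pts.ev_mul h P (hφ.ord_div_pivot_nonneg P i) hu.ge
  rw [h5]
  ring

/-- **L7** from L2. -/
theorem localDecompLe_of_closedImage (𝔸 : AbsSys) (h : IsRRField Qbar F)
    (hφ : IsEmbBasis P₀ e φ) (hcl : WF1.ClosedImage φ)
    (he : 3 * genusFF Qbar F + 1 ≤ e) {j d : ℕ}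
    (b : Module.Basis (Fin (d + 1)) Qbar (secSpace P₀ e j)) :
    LocalDecompLe 𝔸 h P₀ e φ j b :=
  localDecompLe_of_closed 𝔸 (closedProp_of_closedImage h hφ hcl) h hφ he b

end Fermat.Agent.S17.L7
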